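/-
S56, block (G2), part (D)/(U): the CONTRACT between the base case (helper14) and the units block (helper4).

`UnitsStatement p`: for a number field `E ∋ ζ_p`, a finite group `Γ` of order prime to `p` acting on `E`
(through `act : Γ →* Gal(E/ℚ)`), a finite `Γ`-stable set `T` of finite places and EVERY additive function `e`
on finite dimensional `F_p[Γ]`-modules:
  `e(O_{E,T}^×/p) + e(F_p) = e(μ_p) + e(F_p[T]) + e(F_p[∞_E])`.
All modules are given "relationally" (any model will do).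
-/
import Fermat.Agent.S56.G2.AddFun
import Fermat.Agent.CFT.Basic

set_option autoImplicit false

open NumberField Fermat.Agent.CFT

namespace Fermat.Agent.S56.G2

/-- The permutation representation on `X → k` of an action `a : Γ →* Perm X`:
`(γ f) x = f (γ⁻¹ x)`. -/
def permRepP (k : Type*) [CommRing k] {Γ X : Type*} [Group Γ] (a : Γ →* Equiv.Perm X) :
    Representation k Γ (X → k) where
  toFun γ :=
    { toFun := fun f x => f (a γ⁻¹ x)
      map_add' := fun _ _ => rfl
      map_smul' := fun _ _ => rfl }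
  map_one' := by ext f x; simp
  map_mul' γ γ' := by ext f x; simp [mul_inv_rev]

@[simp] lemma permRepP_apply (k : Type*) [CommRing k] {Γ X : Type*} [Group Γ] (a : Γ →* Equiv.Perm X)
    (γ : Γ) (f : X → k) (x : X) : permRepP k a γ f x = f (a γ⁻¹ x) := rfl

/-- **(U)** the class of the `T`-units mod `p` in the Grothendieck group. -/
def UnitsStatement (p : ℕ) [Fact p.Prime] : Prop :=
  ∀ (E : Type) [Field E] [NumberField E] (Γ : Type) [Group Γ] [Finite Γ] (act : Γ →* (E ≃ₐ[ℚ] E)),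
    ¬ p ∣ Nat.card Γ →
  ∀ (ζ : E), IsPrimitiveRoot ζ p →
  ∀ (T : Set (Pl E)), T.Finite → (∀ γ : Γ, ∀ w ∈ T, act γ • w ∈ T) →
  ∀ (e : AddFun (ZMod p) Γ)
    -- the units mod `p`
    (M : Type) [AddCommGroup M] [Module (ZMod p) M] [Module.Finite (ZMod p) M]
    (τM : Representation (ZMod p) Γ M) (κ : ↥(SU T) →* Multiplicative M),
    Function.Surjective κ → (∀ x : ↥(SU T), κ x = 1 ↔ (x : Eˣ) ∈ PW p Eˣ) →
    (∀ (γ : Γ) (x y : ↥(SU T)), (((y : Eˣ) : E)) = act γ ((x : Eˣ) : E) →
      κ y = Multiplicative.ofAdd (τM γ (Multiplicative.toAdd (κ x)))) →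
    -- `μ_p`
  ∀ (τμ : Representation (ZMod p) Γ (ZMod p)) (χ : Γ → ZMod p),
    (∀ γ : Γ, act γ ζ = ζ ^ (χ γ).val) → (∀ (γ : Γ) (a : ZMod p), τμ γ a = χ γ * a) →
    -- the finite places in `T`
  ∀ (Xf : Type) [Finite Xf] (af : Γ →* Equiv.Perm Xf) (jf : Xf → Pl E),
    Function.Injective jf → Set.range jf = T → (∀ (γ : Γ) (x : Xf), jf (af γ x) = act γ • jf x) →
    -- the infinite places
  ∀ (Xi : Type) [Finite Xi] (ai : Γ →* Equiv.Perm Xi) (ji : Xi → InfinitePlace E),
    Function.Bijective ji → (∀ (γ : Γ) (x : Xi), ji (ai γ x) = act γ • ji x) →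
    e.toFun M τM + e.toFun (ZMod p) (Representation.trivial (ZMod p) Γ (ZMod p)) =
      e.toFun (ZMod p) τμ + e.toFun (Xf → ZMod p) (permRepP (ZMod p) af)
        + e.toFun (Xi → ZMod p) (permRepP (ZMod p) ai)

end Fermat.Agent.S56.G2
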