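/-
S56, block (G2), part (D) = the base case `BaseH1Statement`.  DEFINITIONS shared by all the leaves.

* `equivFunOn V a σ` : functions `f : X → Z` with `f (a v x) = σ v (f x)` for `v ∈ V`;
* `barHom f hf`      : the homomorphism `V/U → M` induced by `f : G →* M` trivial on `U`
                       (representations, permutation actions, characters, Galois actions are all of this form);
* `twH1 L hU c`      : the action of `G` on `H¹(U, c)` (`U` a level, hence normal) by conjugation;
* `lamC`, `Psi`      : `H¹(V, ρ) → Hom_k(Y^*, H¹(U, c))`, `[z] ↦ (λ ↦ [λ ∘ z])`.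
-/
import Fermat.Agent.S56.G2.D.Units
import Fermat.Agent.PT.Duality.Defs
import Fermat.Agent.PT.Coh.Dict
import Fermat.Agent.PT.Coh.Cores
import Fermat.Prelude.Def_GroupCohomology_Selmer

set_option autoImplicit false

open Module Fermat.Agent.PT

noncomputable section

namespace Fermat.Agent.S56.G2.D

/-- `V`-equivariant functions `X → Z` (`G` acts on `X` through `a`). -/
def equivFunOn {k G X Z : Type*} [CommRing k] [Group G] [AddCommGroup Z] [Module k Z]
    (V : Subgroup G) (a : G →* Equiv.Perm X) (σ : Representation k G Z) : Submodule k (X → Z) where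
  carrier := {f | ∀ v ∈ V, ∀ x, f (a v x) = σ v (f x)}
  add_mem' := by
    intro f f' hf hf' v hv x
    simp [hf v hv x, hf' v hv x]
  zero_mem' := by intro v _ x; simp
  smul_mem' := by
    intro c f hf v hv x
    simp [hf v hv x]

lemma mem_equivFunOn {k G X Z : Type*} [CommRing k] [Group G] [AddCommGroup Z] [Module k Z]
    {V : Subgroup G} {a : G →* Equiv.Perm X} {σ : Representation k G Z} {f : X → Z} :
    f ∈ equivFunOn V a σ ↔ ∀ v ∈ V, ∀ x, f (a v x) = σ v (f x) := Iff.rfl

section Bar

variable {G : Type*} [Group G] (V U : Subgroup G) [U.Normal] {M : Type*} [Monoid M]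

/-- The homomorphism `V/U → M` induced by `f : G →* M` trivial on `U`. -/
def barHom (f : G →* M) (hf : ∀ u ∈ U, f u = 1) : CosetsIn V U →* M :=
  QuotientGroup.lift (U.subgroupOf V) (f.comp V.subtype) (fun x hx => hf x.1 hx)

@[simp] lemma barHom_mk (f : G →* M) (hf : ∀ u ∈ U, f u = 1) (v : V) :
    barHom V U f hf (QuotientGroup.mk v) = f v := rfl

end Bar

section Tw

variable {k : Type*} [CommRing k] {G : Type*} [Group G] {A : Type*} [AddCommGroup A] [Module k A]
variable (L : LevelSystem G) {U : Subgroup G} (hU : U ∈ L) (c : Representation k G A)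

include hU in
lemma conj_mem_of_mem_level (g : G) : ∀ w ∈ U, g⁻¹ * w * g ∈ U := by
  intro w hw
  have := (L.normal' U hU).conj_mem w hw g⁻¹
  simpa using this

/-- The conjugation action of `G` on `H¹(U, c)`, `U` a level. -/
def twH1 : Representation k G (H1 L U c) where
  toFun g := (twC L c g (conj_mem_of_mem_level L hU g)).H1
  map_one' := by
    apply LinearMap.ext
    intro x
    obtain ⟨z, rfl⟩ := H1.mk_surjective L U c x
    rw [CMap.H1_mk, Module.End.one_apply]
    congr 1
    apply Subtype.ext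
    funext g₀ g₁
    simp [twC]
  map_mul' g h := by
    apply LinearMap.ext
    intro x
    obtain ⟨z, rfl⟩ := H1.mk_surjective L U c x
    rw [Module.End.mul_apply, CMap.H1_mk, CMap.H1_mk, CMap.H1_mk]
    congr 1
    apply Subtype.ext
    exact tw1_mul g h _

lemma twH1_mk (g : G) (z : Z1 L U c) :
    twH1 L hU c g (H1.mk L U c z) =
      H1.mk L U c ⟨tw1 c g z, (twC L c g (conj_mem_of_mem_level L hU g)).memZ1 z.2⟩ := rfl

lemma twH1_of_mem {u : G} (hu : u ∈ U) : twH1 L hU c u = 1 := by
  apply LinearMap.ext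
  intro x
  obtain ⟨z, rfl⟩ := H1.mk_surjective L U c x
  rw [twH1_mk, Module.End.one_apply]
  congr 1
  apply Subtype.ext
  exact tw1_of_mem hu z.2.1

end Tw

section Psi

variable {k : Type*} [CommRing k] {G : Type*} [Group G] {Y : Type*} [AddCommGroup Y] [Module k Y]
variable (L : LevelSystem G) {U V : Subgroup G} (hUV : U ≤ V)
  {ρ : Representation k G Y} (hρ : ∀ u ∈ U, ρ u = 1)
  {c : Representation k G k} (hc : ∀ u ∈ U, c u = 1)

/-- Post-composition of `U`-cochains with a linear form `lam : Y → k` (both `ρ` and `c` are trivial on `U`). -/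
def lamC (lam : Module.Dual k Y) : CMap L U ρ L U c :=
  mapC L U (φ := lam) (fun v hv a => by rw [hρ v hv, hc v hv]; rfl)

@[simp] lemma lamC_T1 (lam : Module.Dual k Y) (f : G → G → Y) (g₀ g₁ : G) :
    (lamC L hρ hc lam).T1 f g₀ g₁ = lam (f g₀ g₁) := rfl

@[simp] lemma lamC_T0 (lam : Module.Dual k Y) (f : G → Y) (g₀ : G) :
    (lamC L hρ hc lam).T0 f g₀ = lam (f g₀) := rfl

/-- `H¹(V, ρ) → Hom_k(Y^*, H¹(U, c))`, `[z] ↦ (lam ↦ [lam ∘ z])`. -/
def Psi : H1 L V ρ →ₗ[k] Module.Dual k Y →ₗ[k] H1 L U c :=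
  LinearMap.mk₂ k (fun x lam => (lamC L hρ hc lam).H1 ((resC L ρ hUV).H1 x))
    (fun x x' lam => by rw [map_add, map_add])
    (fun a x lam => by rw [map_smul, map_smul])
    (fun x lam lam' => by
      obtain ⟨z, rfl⟩ := H1.mk_surjective L V ρ x
      simp only [CMap.H1_mk]
      rw [← map_add]
      congr 1)
    (fun a x lam => by
      obtain ⟨z, rfl⟩ := H1.mk_surjective L V ρ x
      simp only [CMap.H1_mk]
      rw [← map_smul]
      congr 1)

lemma Psi_mk (z : Z1 L V ρ) (lam : Module.Dual k Y) :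
    Psi L hUV hρ hc (H1.mk L V ρ z) lam =
      H1.mk L U c ((lamC L hρ hc lam).Z1 ((resC L ρ hUV).Z1 z)) := rfl

end Psi

end Fermat.Agent.S56.G2.D

end
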