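/-
S56 (G2)(D), leaf Bar: dictionary between `G`-representations trivial on `U` (restricted to `V ⊇ U`) and
representations of the finite group `Γ = V/U = CosetsIn V U`.
All proofs: `QuotientGroup.mk_surjective` / `QuotientGroup.induction_on` + `barHom_mk`.
-/
import Fermat.Agent.S56.G2.D.Defs

set_option autoImplicit false

open Module Fermat.Agent.PT

noncomputable section

namespace Fermat.Agent.S56.G2.D

variable {k : Type*} [CommRing k] {G : Type*} [Group G] (V U : Subgroup G) [U.Normal]
variable {Z Z' : Type*} [AddCommGroup Z] [Module k Z] [AddCommGroup Z'] [Module k Z'] {X : Type*}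

theorem EHom_barHom (σ : Representation k G Z) (hσ : ∀ u ∈ U, σ u = 1)
    (τ : Representation k G Z') (hτ : ∀ u ∈ U, τ u = 1) :
    EHom (barHom V U σ hσ) (barHom V U τ hτ) = EHomOn V σ τ := by
  ext φ
  constructor
  · intro h v hv a
    exact h (QuotientGroup.mk (⟨v, hv⟩ : V)) a
  · intro h g a
    obtain ⟨v, rfl⟩ := QuotientGroup.mk_surjective g
    exact h v.1 v.2 a

theorem invOf_top_barHom (σ : Representation k G Z) (hσ : ∀ u ∈ U, σ u = 1) :
    invOf ⊤ (barHom V U σ hσ) = invOf V σ := by
  ext x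
  constructor
  · intro h v hv
    exact h (QuotientGroup.mk (⟨v, hv⟩ : V)) (Subgroup.mem_top _)
  · intro h g _
    obtain ⟨v, rfl⟩ := QuotientGroup.mk_surjective g
    exact h v.1 v.2

theorem equivFunOn_top_barHom (a : G →* Equiv.Perm X) (ha : ∀ u ∈ U, a u = 1)
    (σ : Representation k G Z) (hσ : ∀ u ∈ U, σ u = 1) :
    equivFunOn ⊤ (barHom V U a ha) (barHom V U σ hσ) = equivFunOn V a σ := by
  ext f
  constructor
  · intro h v hv x
    exact h (QuotientGroup.mk (⟨v, hv⟩ : V)) (Subgroup.mem_top _) x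
  · intro h g _ x
    obtain ⟨v, rfl⟩ := QuotientGroup.mk_surjective g
    exact h v.1 v.2 x

theorem dual_eq_one_of_mem (σ : Representation k G Z) (hσ : ∀ u ∈ U, σ u = 1) :
    ∀ u ∈ U, σ.dual u = 1 := by
  intro u hu
  apply LinearMap.ext
  intro f
  apply LinearMap.ext
  intro x
  rw [Representation.dual_apply, Module.End.one_apply, Module.Dual.transpose_apply,
    hσ u⁻¹ (U.inv_mem hu)]
  rfl

theorem dual_barHom (σ : Representation k G Z) (hσ : ∀ u ∈ U, σ u = 1) :
    Representation.dual (barHom V U σ hσ) = barHom V U σ.dual (dual_eq_one_of_mem U σ hσ) := by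
  apply MonoidHom.ext
  intro g
  obtain ⟨v, rfl⟩ := QuotientGroup.mk_surjective g
  rfl

theorem card_cosetsIn : Nat.card (CosetsIn V U) = U.relIndex V := by
  rfl

theorem finite_cosetsIn_of_finiteIndex [U.FiniteIndex] : Finite (CosetsIn V U) := by
  apply Nat.finite_of_card_ne_zero
  rw [card_cosetsIn]
  intro h0
  have hd : U.relIndex V ∣ U.index := Subgroup.relIndex_dvd_index_of_normal U V
  rw [h0, zero_dvd_iff] at hd
  exact Subgroup.FiniteIndex.index_ne_zero hd

end Fermat.Agent.S56.G2.D

end
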