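/-
S56 (G2)(D), leaf Psi1: `Psi x : Y^* → H¹(U, c)` is `V`-equivariant (`Y^*` with the action `ρ^*(ω)`,
`H¹(U, c)` with the conjugation action).
-/
import Fermat.Agent.S56.G2.D.Defs

set_option autoImplicit false

open Module Fermat.Agent.PT

noncomputable section

namespace Fermat.Agent.S56.G2.D

variable {k : Type*} [CommRing k] {G : Type*} [Group G] {Y : Type*} [AddCommGroup Y] [Module k Y]
variable (L : LevelSystem G) {U V : Subgroup G} (hU : U ∈ L) (hUV : U ≤ V)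
  {ρ : Representation k G Y} (hρ : ∀ u ∈ U, ρ u = 1)
  {c : Representation k G k} (hc : ∀ u ∈ U, c u = 1)
  (ω : G →* kˣ) (hcω : ∀ g a, c g a = (ω g : k) * a)

include hcω in
/-- Cochain level identity (any `g : G`, any function `f`):
`(ρ^*(ω) g lam) (tw1 ρ g f g₀ g₁) = tw1 c g (lam ∘ f) g₀ g₁`, i.e. both sides are `ω g * lam (f (g⁻¹ g₀) (g⁻¹ g₁))`
(`Representation.twist_apply_apply`, `Representation.dual_apply`, `Module.Dual.transpose_apply`; compare
`PT.ThetaSurj_twist_apply` in `PT/Duality/ThetaSurj.lean`). -/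
theorem dualTwist_tw1 (g : G) (lam : Module.Dual k Y) (f : G → G → Y) (g₀ g₁ : G) :
    (ρ.dual.twist ω g lam) (tw1 ρ g f g₀ g₁) = tw1 c g (fun x y => lam (f x y)) g₀ g₁ := by
  rw [tw1_apply, tw1_apply, hcω, Representation.twist_apply_apply, LinearMap.smul_apply,
    Representation.dual_apply, Module.Dual.transpose_apply, LinearMap.comp_apply,
    ← Module.End.mul_apply, ← map_mul, inv_mul_cancel, map_one, Module.End.one_apply, smul_eq_mul]

include hcω in
/-- **(Psi1)**  For `x = [z]`, `z ∈ Z1 L V ρ`, `v ∈ V`: `tw1 ρ v z = z` (`tw1_of_mem`), so by `dualTwist_tw1`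
`(ρ^*(ω) v lam) ∘ z = tw1 c v (lam ∘ z)` as cochains; conclude with `Psi_mk`, `twH1_mk`. -/
theorem Psi_mem (x : H1 L V ρ) :
    Psi L hUV hρ hc x ∈ EHomOn V (ρ.dual.twist ω) (twH1 L hU c) := by
  obtain ⟨z, rfl⟩ := H1.mk_surjective L V ρ x
  rw [mem_EHomOn]
  intro v hv lam
  rw [Psi_mk, Psi_mk, twH1_mk]
  congr 1
  apply Subtype.ext
  funext g₀ g₁
  have h1 := dualTwist_tw1 (ρ := ρ) ω hcω v lam z.1 g₀ g₁
  rw [tw1_of_mem hv z.2.1] at h1
  exact h1

end Fermat.Agent.S56.G2.D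

end
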