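/-
S56 (G2)(D), leaf Psi2: `Psi : H¹(V, ρ) → Hom_k(Y^*, H¹(U, c))` is injective (`[V : U]` invertible in `k`).
-/
import Fermat.Agent.S56.G2.D.Defs

set_option autoImplicit false

open Module Fermat.Agent.PT

noncomputable section

namespace Fermat.Agent.S56.G2.D

variable {k : Type*} [Field k] {G : Type*} [Group G] {Y : Type*} [AddCommGroup Y] [Module k Y]
  [Module.Finite k Y]
variable (L : LevelSystem G) {U V : Subgroup G} (hU : U ∈ L) (hUV : U ≤ V)
  {ρ : Representation k G Y} (hρ : ∀ u ∈ U, ρ u = 1)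
  {c : Representation k G k} (hc : ∀ u ∈ U, c u = 1)

include hρ hc in
/-- If all `lam ∘ z` are coboundaries of `U` then so is `z`.
PROOF.  `b := Module.finBasis k Y` (or `Module.Free.chooseBasis`), `lam_j := b.coord j`; `lam_j ∘ z = d0 e_j`, `e_j ∈ X0 L U c`;
`e g := ∑ j, e_j g • b j ∈ X0 L U ρ` (equivariance: `ρ u = 1`, `c u = 1` for `u ∈ U`; smoothness: a common level, or
`Submodule.sum_mem` after showing each `g ↦ e_j g • b j ∈ X0 L U ρ`), and `d0 e = z` by `b.sum_repr`. -/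
theorem mem_B1_of_forall_lam {z : G → G → Y}
    (h : ∀ lam : Module.Dual k Y, (fun g₀ g₁ => lam (z g₀ g₁)) ∈ B1 L U c) : z ∈ B1 L U ρ := by
  classical
  let b := Module.finBasis k Y
  choose e he hde using fun j => (mem_B1.1 (h (b.coord j)))
  refine mem_B1.2 ⟨∑ j, (fun g => e j g • b j), Submodule.sum_mem _ (fun j _ => ?_), ?_⟩
  · obtain ⟨h1, W, hW, h2⟩ := he j
    refine ⟨fun u hu g => ?_, W, hW, fun g w hw => ?_⟩
    · show e j (u * g) • b j = ρ u (e j g • b j)
      rw [h1 u hu, hc u hu, hρ u hu]; rfl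
    · show e j (g * w) • b j = e j g • b j
      rw [h2 g w hw]
  · funext g₀ g₁
    rw [d0_apply, Finset.sum_apply, Finset.sum_apply, ← Finset.sum_sub_distrib]
    conv_rhs => rw [← b.sum_repr (z g₀ g₁)]
    refine Finset.sum_congr rfl fun j _ => ?_
    rw [← sub_smul]
    have := congrFun (congrFun (hde j) g₀) g₁
    rw [d0_apply] at this
    rw [this]; rfl

include hU hUV in
/-- A `V`-cocycle which is a coboundary on `U` is a coboundary on `V` (`cores_res_H1`, or directly: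
`(U.relIndex V) • z = cor1 ρ V U z = cor1 (d0 e) = d0 (cor0 e)`, `Cores_cor1_of_mem`, `d0_cor0`, `cor0_mem`;
`Finite (CosetsIn V U)` since `U` has finite index: `L.finiteIndex' U hU`). -/
theorem mem_B1_of_mem_B1_level (hidx : ((U.relIndex V : ℕ) : k) ≠ 0) {z : G → G → Y}
    (hz : z ∈ Z1 L V ρ) (h : z ∈ B1 L U ρ) : z ∈ B1 L V ρ := by
  have hfi : (U.subgroupOf V).FiniteIndex := by
    have := L.finiteIndex' U hU
    infer_instance
  have : Finite (CosetsIn V U) := Subgroup.finite_quotient_of_finiteIndex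
  obtain ⟨e, he, rfl⟩ := mem_B1.1 h
  have h1 : cor1 ρ V U (d0 (k := k) e) = (U.relIndex V) • d0 (k := k) e :=
    Cores_cor1_of_mem L ρ hUV hz.1
  have h2 : d0 (k := k) (cor0 ρ V U e) = cor1 ρ V U (d0 (k := k) e) := d0_cor0 V U e
  refine mem_B1.2 ⟨((U.relIndex V : ℕ) : k)⁻¹ • cor0 ρ V U e,
    Submodule.smul_mem _ _ (cor0_mem he), ?_⟩
  rw [map_smul, h2, h1, ← Nat.cast_smul_eq_nsmul k, smul_smul, inv_mul_cancel₀ hidx, one_smul]

include hU in
/-- **(Psi2)** -/
theorem Psi_injective (hidx : ((U.relIndex V : ℕ) : k) ≠ 0) :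
    Function.Injective (Psi L hUV hρ hc) := by
  rw [injective_iff_map_eq_zero]
  intro x hx
  obtain ⟨z, rfl⟩ := H1.mk_surjective L V ρ x
  rw [H1.mk_eq_zero_iff]
  apply mem_B1_of_mem_B1_level L hU hUV hidx z.2
  apply mem_B1_of_forall_lam L hρ hc
  intro lam
  have := LinearMap.congr_fun hx lam
  rw [Psi_mk, LinearMap.zero_apply, H1.mk_eq_zero_iff] at this
  exact this

end Fermat.Agent.S56.G2.D

end
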