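/-
S56 (G2)(D), leaf Psi3: the image of `Psi : H¹(V, ρ) → Hom_k(Y^*, H¹(U, c))` contains all `V`-equivariant maps.
-/
import Fermat.Agent.S56.G2.D.Psi1

set_option autoImplicit false

open Module Fermat.Agent.PT

noncomputable section

namespace Fermat.Agent.S56.G2.D

variable {k : Type*} [Field k] {G : Type*} [Group G] {Y : Type*} [AddCommGroup Y] [Module k Y]
  [Module.Finite k Y]
variable (L : LevelSystem G) {U V : Subgroup G} (hU : U ∈ L) (hUV : U ≤ V)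
  {ρ : Representation k G Y} (hρ : ∀ u ∈ U, ρ u = 1)
  {c : Representation k G k} (hc : ∀ u ∈ U, c u = 1)
  (ω : G →* kˣ) (hcω : ∀ g a, c g a = (ω g : k) * a)

/-- Every linear `φ : Y^* → H¹(U, c)` is `lam ↦ [lam ∘ z₀]` for a cocycle `z₀ ∈ Z1 L U ρ`.
PROOF.  `b` a finite basis of `Y`, `f_j ∈ Z1 L U c` a representative of `φ (b.coord j)` (`H1.mk_surjective`),
`z₀ g₀ g₁ := ∑ j, f_j g₀ g₁ • b j`.  Then `lam ∘ z₀ = ∑ j, lam (b j) • f_j` and `lam = ∑ j, lam (b j) • b.coord j`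
(`Basis.sum_dual_apply_smul_coord`). -/
theorem exists_Z1_level (φ : Module.Dual k Y →ₗ[k] H1 L U c) :
    ∃ z₀ : Z1 L U ρ, ∀ lam : Module.Dual k Y,
      φ lam = H1.mk L U c ((lamC L hρ hc lam).Z1 z₀) := by
  classical
  let b := Module.finBasis k Y
  choose f hf using fun j => H1.mk_surjective L U c (φ (b.coord j))
  let T : ∀ y : Y, CMap L U c L U ρ := fun y =>
    mapC L U (φ := LinearMap.toSpanSingleton k Y y) (fun v hv a => by rw [hρ v hv, hc v hv]; rfl)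
  refine ⟨∑ j, (T (b j)).Z1 (f j), fun lam => ?_⟩
  have h1 : (lamC L hρ hc lam).Z1 (∑ j, (T (b j)).Z1 (f j)) = ∑ j, lam (b j) • f j := by
    rw [map_sum]
    refine Finset.sum_congr rfl fun j _ => ?_
    apply Subtype.ext
    funext g₀ g₁
    show lam ((f j : G → G → k) g₀ g₁ • b j) = lam (b j) • (f j : G → G → k) g₀ g₁
    rw [map_smul, smul_eq_mul, smul_eq_mul, mul_comm]
  rw [h1, map_sum]
  simp only [map_smul, hf]
  rw [← b.sum_dual_apply_smul_coord lam, map_sum]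
  simp only [map_smul]
  refine Finset.sum_congr rfl fun j _ => ?_
  rw [b.sum_dual_apply_smul_coord lam]

include hcω in
/-- **(Psi3)**  Given `φ ∈ EHomOn V ρ^*(ω) (twH1)`, take `z₀` as in `exists_Z1_level` and
`z := n⁻¹ • cor1 ρ V U z₀ ∈ Z1 L V ρ`, `n = U.relIndex V` (`(coresC L ρ V U).memZ1`; by definition
`cor1 ρ V U = ∑ q : CosetsIn V U, tw1 ρ q.rep`, `q.rep ∈ V`).  For every `lam` and `r = q.rep`, with
`lam' := ρ^*(ω) r⁻¹ lam` (so `lam = ρ^*(ω) r lam'`), `dualTwist_tw1` gives `lam ∘ tw1 ρ r z₀ = tw1 c r (lam' ∘ z₀)`, whose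
class is `twH1 r (φ lam') = φ (ρ^*(ω) r lam') = φ lam`.  Summing: `[lam ∘ z] = n⁻¹ • n • φ lam = φ lam`
(`Nat.card (CosetsIn V U) = U.relIndex V` by definition of `relIndex`/`index`). -/
theorem Psi_surjOn (hidx : ((U.relIndex V : ℕ) : k) ≠ 0)
    (φ : Module.Dual k Y →ₗ[k] H1 L U c) (hφ : φ ∈ EHomOn V (ρ.dual.twist ω) (twH1 L hU c)) :
    ∃ x : H1 L V ρ, Psi L hUV hρ hc x = φ := by
  classical
  obtain ⟨z₀, hz₀⟩ := exists_Z1_level L hρ hc φ
  have hn0 : U.relIndex V ≠ 0 := by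
    intro h0
    rw [h0] at hidx
    exact hidx Nat.cast_zero
  have : Finite (CosetsIn V U) := Nat.finite_of_card_ne_zero hn0
  let _ : Fintype (CosetsIn V U) := Fintype.ofFinite (CosetsIn V U)
  let W : G → Z1 L U ρ := fun r => (twC L ρ r (conj_mem_of_mem_level L hU r)).Z1 z₀
  -- the class of `lam ∘ tw1 ρ r z₀`
  have hB : ∀ r ∈ V, ∀ lam : Module.Dual k Y,
      H1.mk L U c ((lamC L hρ hc lam).Z1 (W r)) = φ lam := by
    intro r hr lam
    set lam' := ρ.dual.twist ω r⁻¹ lam with hlam'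
    have hlam : ρ.dual.twist ω r lam' = lam := by
      rw [hlam', ← Module.End.mul_apply, ← map_mul, mul_inv_cancel, map_one, Module.End.one_apply]
    have h1 : (lamC L hρ hc lam).Z1 (W r) =
        ⟨tw1 c r ((lamC L hρ hc lam').Z1 z₀),
          (twC L c r (conj_mem_of_mem_level L hU r)).memZ1 ((lamC L hρ hc lam').Z1 z₀).2⟩ := by
      apply Subtype.ext
      funext g₀ g₁
      show lam (tw1 ρ r z₀ g₀ g₁) = tw1 c r (fun x y => lam' ((z₀ : G → G → Y) x y)) g₀ g₁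
      rw [← dualTwist_tw1 ω hcω r lam' z₀ g₀ g₁, hlam]
    rw [h1, ← twH1_mk L hU c r, ← hz₀ lam', ← hφ r hr lam', hlam]
  refine ⟨H1.mk L V ρ (((U.relIndex V : ℕ) : k)⁻¹ • (coresC L ρ V U).Z1 z₀), ?_⟩
  apply LinearMap.ext
  intro lam
  rw [Psi_mk]
  have hA : (resC L ρ hUV).Z1 (((U.relIndex V : ℕ) : k)⁻¹ • (coresC L ρ V U).Z1 z₀)
      = ((U.relIndex V : ℕ) : k)⁻¹ • ∑ q : CosetsIn V U, W q.rep := by
    apply Subtype.ext
    show ((U.relIndex V : ℕ) : k)⁻¹ • cor1 ρ V U (z₀ : G → G → Y) = _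
    rw [Submodule.coe_smul, Submodule.coe_sum]
    congr 1
    unfold cor1
    rw [LinearMap.sum_apply]
    rfl
  rw [hA, map_smul, map_smul, map_sum, map_sum,
    Finset.sum_congr rfl fun q _ => hB q.rep q.rep_mem lam, Finset.sum_const, Finset.card_univ,
    ← Nat.card_eq_fintype_card, ← Nat.cast_smul_eq_nsmul k, smul_smul]
  have hcard : Nat.card (CosetsIn V U) = U.relIndex V := rfl
  rw [hcard, inv_mul_cancel₀ hidx, one_smul]

end Fermat.Agent.S56.G2.D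

end
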