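/-
S56 (G2)(D): `H¹(V, ρ) ≅ Hom_V(ρ^*(ω), H¹(U, c))` for `U ≤ V`, `[V : U]` invertible, `ρ` trivial on the level `U`.
-/
import Fermat.Agent.S56.G2.D.Psi1
import Fermat.Agent.S56.G2.D.Psi2
import Fermat.Agent.S56.G2.D.Psi3

set_option autoImplicit false

open Module Fermat.Agent.PT

noncomputable section

namespace Fermat.Agent.S56.G2.D

variable {k : Type*} [Field k] {G : Type*} [Group G] {Y : Type*} [AddCommGroup Y] [Module k Y]
  [Module.Finite k Y]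
variable (L : LevelSystem G) {U V : Subgroup G} (hU : U ∈ L) (hUV : U ≤ V)
  {ρ : Representation k G Y} (hρ : ∀ u ∈ U, ρ u = 1)
  {c : Representation k G k} (hc : ∀ u ∈ U, c u = 1)
  (ω : G →* kˣ) (hcω : ∀ g a, c g a = (ω g : k) * a)

include hUV hρ hc hcω in
theorem nonempty_H1_equiv (hidx : ((U.relIndex V : ℕ) : k) ≠ 0) :
    Nonempty (H1 L V ρ ≃ₗ[k] EHomOn V (ρ.dual.twist ω) (twH1 L hU c)) := by
  let Φ : H1 L V ρ →ₗ[k] EHomOn V (ρ.dual.twist ω) (twH1 L hU c) :=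
    (Psi L hUV hρ hc).codRestrict _ (Psi_mem L hU hUV hρ hc ω hcω)
  refine ⟨LinearEquiv.ofBijective Φ ⟨?_, ?_⟩⟩
  · intro x y hxy
    exact Psi_injective L hU hUV hρ hc hidx (congrArg Subtype.val hxy)
  · rintro ⟨φ, hφ⟩
    obtain ⟨x, hx⟩ := Psi_surjOn L hU hUV hρ hc ω hcω hidx φ hφ
    exact ⟨x, Subtype.ext hx⟩

include hUV hρ hc hcω in
theorem finrank_H1_eq (hidx : ((U.relIndex V : ℕ) : k) ≠ 0) :
    finrank k (H1 L V ρ) = finrank k (EHomOn V (ρ.dual.twist ω) (twH1 L hU c)) := by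
  obtain ⟨e⟩ := nonempty_H1_equiv L hU hUV hρ hc ω hcω hidx
  exact e.finrank_eq

include hU hUV hρ hc hcω in
theorem finite_H1_of_level [Module.Finite k (H1 L U c)] (hidx : ((U.relIndex V : ℕ) : k) ≠ 0) :
    Module.Finite k (H1 L V ρ) := by
  obtain ⟨e⟩ := nonempty_H1_equiv L hU hUV hρ hc ω hcω hidx
  exact Module.Finite.equiv e.symm

end Fermat.Agent.S56.G2.D

end
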