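/-
S56 (G2)(D), leaf F1: `T ↦ dim Hom_Γ(β, T)` is an additive function when `#Γ` is invertible in `k` (Maschke).
-/
import Fermat.Agent.S56.G2.D.Defs

set_option autoImplicit false

open Module Fermat.Agent.PT

noncomputable section

namespace Fermat.Agent.S56.G2.D

variable {k : Type} [Field k] {Γ : Type} [Group Γ] [Finite Γ]

/-- **(F1)** `Hom_Γ(β, -)` is exact when `#Γ` is invertible.
PROOF.  `EHom β ρA → EHom β ρB → EHom β ρC` (post-composition with `i`, `q`) is left exact for trivial reasons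
(`i` injective, `Function.Exact i q`: a `φ` with `q ∘ φ = 0` factors through `i`, e.g. via
`LinearMap.codRestrict`/`LinearEquiv.ofInjective`, and the factorisation is equivariant because `i` is injective).
Surjectivity: for `ψ ∈ EHom β ρC` choose a `k`-linear `φ₀ : B' → B` with `q ∘ φ₀ = ψ`
(`LinearMap.exists_rightInverse_of_surjective`) and average: `φ = (#Γ)⁻¹ • ∑_γ ρB γ ∘ φ₀ ∘ β γ⁻¹`.
Then rank-nullity (`LinearMap.finrank_range_add_finrank_ker`). -/
theorem finrank_EHom_additive (hΓ : (Nat.card Γ : k) ≠ 0)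
    {B' : Type} [AddCommGroup B'] [Module k B'] [Module.Finite k B'] (β : Representation k Γ B')
    (A B C : Type) [AddCommGroup A] [Module k A] [Module.Finite k A]
    [AddCommGroup B] [Module k B] [Module.Finite k B] [AddCommGroup C] [Module k C] [Module.Finite k C]
    (ρA : Representation k Γ A) (ρB : Representation k Γ B) (ρC : Representation k Γ C)
    (i : A →ₗ[k] B) (q : B →ₗ[k] C) (hi : ∀ g a, i (ρA g a) = ρB g (i a))
    (hq : ∀ g b, q (ρB g b) = ρC g (q b)) (hinj : Function.Injective i) (hsurj : Function.Surjective q)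
    (hex : Function.Exact i q) :
    (finrank k (EHom β ρB) : ℤ) = finrank k (EHom β ρA) + finrank k (EHom β ρC) := by
  classical
  have := Fintype.ofFinite Γ
  let Is : EHom β ρA →ₗ[k] EHom β ρB :=
    { toFun := fun φ => ⟨i ∘ₗ φ.1, EHom.comp_mem (σ := ρA) (fun g a => hi g a) φ.2⟩
      map_add' := fun φ ψ => Subtype.ext (LinearMap.comp_add _ _ _)
      map_smul' := fun c φ => Subtype.ext (LinearMap.comp_smul _ _ _) }
  let Qs : EHom β ρB →ₗ[k] EHom β ρC :=
    { toFun := fun φ => ⟨q ∘ₗ φ.1, EHom.comp_mem (σ := ρB) (fun g b => hq g b) φ.2⟩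
      map_add' := fun φ ψ => Subtype.ext (LinearMap.comp_add _ _ _)
      map_smul' := fun c φ => Subtype.ext (LinearMap.comp_smul _ _ _) }
  have hIs : ∀ (φ : EHom β ρA) x, (Is φ).1 x = i (φ.1 x) := fun _ _ => rfl
  have hQs : ∀ (φ : EHom β ρB) x, (Qs φ).1 x = q (φ.1 x) := fun _ _ => rfl
  have hIinj : Function.Injective Is := by
    intro φ ψ h
    apply Subtype.ext
    refine LinearMap.ext fun x => hinj ?_
    rw [← hIs, ← hIs, h]
  have hker : LinearMap.ker Qs = LinearMap.range Is := by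
    apply le_antisymm
    · intro φ hφ
      have hφ0 : ∀ x, q (φ.1 x) = 0 := by
        intro x
        rw [← hQs, LinearMap.mem_ker.1 hφ]
        rfl
      have hmem : ∀ x, φ.1 x ∈ LinearMap.range i := fun x => (hex (φ.1 x)).1 (hφ0 x)
      let ψ : B' →ₗ[k] A :=
        (LinearEquiv.ofInjective i hinj).symm.toLinearMap ∘ₗ
          (φ.1.codRestrict (LinearMap.range i) hmem)
      have hψ : ∀ x, i (ψ x) = φ.1 x := by
        intro x
        have h1 := (LinearEquiv.ofInjective i hinj).apply_symm_apply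
          (φ.1.codRestrict (LinearMap.range i) hmem x)
        exact congrArg Subtype.val h1
      refine ⟨⟨ψ, fun g x => hinj ?_⟩, Subtype.ext (LinearMap.ext fun x => ?_)⟩
      · rw [hψ, hi, hψ]
        exact φ.2 g x
      · rw [hIs]
        exact hψ x
    · rintro _ ⟨φ, rfl⟩
      rw [LinearMap.mem_ker]
      apply Subtype.ext
      refine LinearMap.ext fun x => ?_
      rw [hQs, hIs]
      exact hex.apply_apply_eq_zero _
  have hQsurj : Function.Surjective Qs := by
    intro ψ
    obtain ⟨s, hs⟩ := q.exists_rightInverse_of_surjective (LinearMap.range_eq_top.2 hsurj)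
    have hs' : ∀ c, q (s c) = c := fun c => LinearMap.congr_fun hs c
    let φ : B' →ₗ[k] B := (Nat.card Γ : k)⁻¹ • ∑ γ : Γ, ρB γ ∘ₗ s ∘ₗ ψ.1 ∘ₗ β γ⁻¹
    have hφ : ∀ x, φ x = (Nat.card Γ : k)⁻¹ • ∑ γ : Γ, ρB γ (s (ψ.1 (β γ⁻¹ x))) := by
      intro x
      simp only [φ, LinearMap.smul_apply, LinearMap.sum_apply, LinearMap.comp_apply]
    refine ⟨⟨φ, fun g x => ?_⟩, Subtype.ext (LinearMap.ext fun x => ?_)⟩
    · rw [hφ, hφ, map_smul, map_sum]
      congr 1
      rw [← Equiv.sum_comp (Equiv.mulLeft g)]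
      refine Finset.sum_congr rfl fun γ _ => ?_
      rw [Equiv.coe_mulLeft, map_mul, Module.End.mul_apply, ← Module.End.mul_apply (β _) (β g),
        ← map_mul, mul_inv_rev, inv_mul_cancel_right]
    · rw [hQs]
      show q (φ x) = ψ.1 x
      rw [hφ, map_smul, map_sum]
      have h1 : ∀ γ : Γ, q (ρB γ (s (ψ.1 (β γ⁻¹ x)))) = ψ.1 x := by
        intro γ
        rw [hq, hs', ψ.2 γ⁻¹ x, ← Module.End.mul_apply, ← map_mul, mul_inv_cancel, map_one]
        rfl
      rw [Finset.sum_congr rfl fun γ _ => h1 γ, Finset.sum_const, Finset.card_univ,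
        ← Nat.card_eq_fintype_card, ← Nat.cast_smul_eq_nsmul k, smul_smul, inv_mul_cancel₀ hΓ,
        one_smul]
  have h1 := LinearMap.finrank_range_add_finrank_ker Qs
  rw [LinearMap.range_eq_top.2 hQsurj, finrank_top, hker, LinearMap.finrank_range_of_inj hIinj]
    at h1
  omega

/-- `T ↦ dim Hom_Γ(β, T)` as an additive function. -/
def homAddFun (hΓ : (Nat.card Γ : k) ≠ 0)
    {B' : Type} [AddCommGroup B'] [Module k B'] [Module.Finite k B'] (β : Representation k Γ B') :
    AddFun k Γ where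
  toFun := fun _ _ _ _ τ => (finrank k (EHom β τ) : ℤ)
  additive := fun A B C _ _ _ _ _ _ _ _ _ ρA ρB ρC i q hi hq hinj hsurj hex =>
    finrank_EHom_additive hΓ β A B C ρA ρB ρC i q hi hq hinj hsurj hex

lemma homAddFun_toFun (hΓ : (Nat.card Γ : k) ≠ 0)
    {B' : Type} [AddCommGroup B'] [Module k B'] [Module.Finite k B'] (β : Representation k Γ B')
    (A : Type) [AddCommGroup A] [Module k A] [Module.Finite k A] (τ : Representation k Γ A) :
    (homAddFun hΓ β).toFun A τ = (finrank k (EHom β τ) : ℤ) := rfl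

end Fermat.Agent.S56.G2.D

end
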