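/-
S56 (G2)(D), leaf F3: `Hom_Γ(σ, k) = (Z^*)^Γ` and `Hom_Γ(σ, k[X]) ≅ Fun_Γ(X, Z^*)`.
-/
import Fermat.Agent.S56.G2.D.Defs

set_option autoImplicit false

open Module Fermat.Agent.PT

noncomputable section

namespace Fermat.Agent.S56.G2.D

variable {k : Type*} [Field k] {Γ : Type*} [Group Γ]
variable {Z : Type*} [AddCommGroup Z] [Module k Z]

/-- **(F5)** `Hom_Γ(σ, k) = (Z^*)^Γ` (the same subspace of `Z →ₗ[k] k = Module.Dual k Z`, up to `γ ↔ γ⁻¹`;
`Representation.dual_apply`, `Module.Dual.transpose_apply`). -/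
theorem finrank_EHom_trivial (σ : Representation k Γ Z) :
    finrank k (EHom σ (Representation.trivial k Γ k)) = finrank k (invOf ⊤ σ.dual) := by
  have h : EHom σ (Representation.trivial k Γ k) = invOf ⊤ σ.dual := by
    ext φ
    rw [mem_EHom, mem_invOf]
    constructor
    · intro h v _
      ext z
      rw [Representation.dual_apply, Module.Dual.transpose_apply, LinearMap.comp_apply, h v⁻¹ z]
      rfl
    · intro h g z
      have h1 := LinearMap.congr_fun (h g⁻¹ (Subgroup.mem_top _)) z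
      rw [Representation.dual_apply, Module.Dual.transpose_apply, LinearMap.comp_apply,
        inv_inv] at h1
      rw [h1]
      rfl
  rw [h]

variable {X : Type*}

/-- `Hom_k(Z, k^X) ≃ (Z^*)^X`. -/
def F3_equiv : (Z →ₗ[k] (X → k)) ≃ₗ[k] (X → Module.Dual k Z) where
  toFun φ x := (LinearMap.proj x).comp φ
  invFun f := LinearMap.pi f
  map_add' _ _ := rfl
  map_smul' _ _ := rfl
  left_inv φ := by ext; rfl
  right_inv f := by ext; rfl

/-- **(F3)** `Hom_Γ(σ, k[X]) ≃ₗ Fun_Γ(X, Z^*)`, `φ ↦ (x ↦ (z ↦ φ z x))` (inverse `f ↦ (z ↦ (x ↦ f x z))`).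
Equivariance: `φ (σ γ z) x = φ z (a γ⁻¹ x)` for all `γ` `⇔` `f (a γ x) = f x ∘ σ γ⁻¹ = σ.dual γ (f x)`. -/
theorem finrank_EHom_permRep (a : Γ →* Equiv.Perm X) (σ : Representation k Γ Z) :
    finrank k (EHom σ (permRepP k a)) = finrank k (equivFunOn ⊤ a σ.dual) := by
  rw [← LinearEquiv.finrank_map_eq (F3_equiv (k := k) (Z := Z) (X := X))]
  have hmap : (EHom σ (permRepP k a)).map
      (F3_equiv (k := k) (Z := Z) (X := X) : (Z →ₗ[k] (X → k)) →ₗ[k] (X → Module.Dual k Z))
      = equivFunOn ⊤ a σ.dual := ?_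
  · rw [hmap]
  ext f
  rw [Submodule.mem_map_equiv, mem_EHom, mem_equivFunOn]
  constructor
  · intro h v _ x
    ext z
    have h1 := congrFun (h v⁻¹ z) x
    rw [permRepP_apply, inv_inv] at h1
    rw [Representation.dual_apply, Module.Dual.transpose_apply, LinearMap.comp_apply]
    exact h1.symm
  · intro h g z
    funext x
    have h1 := LinearMap.congr_fun (h g⁻¹ (Subgroup.mem_top _) x) z
    rw [Representation.dual_apply, Module.Dual.transpose_apply, LinearMap.comp_apply,
      inv_inv] at h1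
    rw [permRepP_apply]
    exact h1.symm

end Fermat.Agent.S56.G2.D

end
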