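/-
S56 (G2)(D), leaf F2: `dim (Z^*)^Γ = dim Z^Γ` when `#Γ` is invertible in `k`.
-/
import Fermat.Agent.S56.G2.D.Defs

set_option autoImplicit false

open Module Fermat.Agent.PT

noncomputable section

namespace Fermat.Agent.S56.G2.D

variable {k : Type*} [Field k] {Γ : Type*} [Group Γ] [Finite Γ]
variable {Z : Type*} [AddCommGroup Z] [Module k Z] [Module.Finite k Z]

/-- the range of the averaging operator is the space of invariants. -/
theorem F2_range_avg {W : Type*} [AddCommGroup W] [Module k W] [Fintype Γ]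
    (hΓ : (Nat.card Γ : k) ≠ 0) (τ : Representation k Γ W) :
    LinearMap.range ((Nat.card Γ : k)⁻¹ • ∑ γ : Γ, τ γ) = invOf ⊤ τ := by
  apply le_antisymm
  · rintro _ ⟨w, rfl⟩
    intro v _
    rw [LinearMap.smul_apply, LinearMap.sum_apply, map_smul, map_sum]
    congr 1
    refine Fintype.sum_equiv (Equiv.mulLeft v) _ _ fun γ => ?_
    rw [Equiv.coe_mulLeft, map_mul]
    rfl
  · intro w hw
    refine ⟨w, ?_⟩
    rw [LinearMap.smul_apply, LinearMap.sum_apply,
      Finset.sum_congr rfl (fun γ _ => hw γ (Subgroup.mem_top γ)), Finset.sum_const,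
      Finset.card_univ, ← Nat.card_eq_fintype_card, ← Nat.cast_smul_eq_nsmul k, smul_smul,
      inv_mul_cancel₀ hΓ, one_smul]

/-- **(F2)** `dim (Z^*)^Γ = dim Z^Γ`.
PROOF.  `π = (#Γ)⁻¹ • ∑_γ σ γ` is a projector of `Z` with range `invOf ⊤ σ`; its transpose `π.dualMap` is the analogous
projector for `σ.dual` (reindex `γ ↦ γ⁻¹`; `Representation.dual_apply`, `Module.Dual.transpose_apply`), with range
`invOf ⊤ σ.dual`; conclude by `LinearMap.finrank_range_dualMap_eq_finrank_range`. -/
theorem finrank_invOf_dual (hΓ : (Nat.card Γ : k) ≠ 0) (σ : Representation k Γ Z) :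
    finrank k (invOf ⊤ σ.dual) = finrank k (invOf ⊤ σ) := by
  cases nonempty_fintype Γ
  have h : ((Nat.card Γ : k)⁻¹ • ∑ γ : Γ, σ γ).dualMap
      = (Nat.card Γ : k)⁻¹ • ∑ γ : Γ, σ.dual γ := by
    ext f z
    rw [LinearMap.dualMap_apply, LinearMap.smul_apply, LinearMap.sum_apply, map_smul, map_sum,
      LinearMap.smul_apply, LinearMap.sum_apply, LinearMap.smul_apply, LinearMap.sum_apply]
    congr 1
    refine Fintype.sum_equiv (Equiv.inv Γ) _ _ fun γ => ?_
    rw [Representation.dual_apply, Module.Dual.transpose_apply, LinearMap.comp_apply,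
      Equiv.inv_apply, inv_inv]
  rw [← F2_range_avg hΓ σ, ← F2_range_avg hΓ σ.dual, ← h,
    LinearMap.finrank_range_dualMap_eq_finrank_range]

end Fermat.Agent.S56.G2.D

end
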