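/-
S56 (G2)(D), leaf F4: `dim Fun_Γ(X, Z^*) = dim Fun_Γ(X, Z)` for finite `X`, `#Γ` invertible in `k`.
-/
import Fermat.Agent.S56.G2.D.F2

set_option autoImplicit false

open Module Fermat.Agent.PT

noncomputable section

namespace Fermat.Agent.S56.G2.D

variable {k : Type*} [Field k] {Γ : Type*} [Group Γ] [Finite Γ]
variable {Z : Type*} [AddCommGroup Z] [Module k Z] [Module.Finite k Z] {X : Type*}

/-- the action of `Γ` on `X → W`: `(γ f) x = σ γ (f (a γ⁻¹ x))`. -/
def F4_rep {k : Type*} [Field k] {Γ : Type*} [Group Γ] {W : Type*} [AddCommGroup W] [Module k W]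
    {X : Type*} (a : Γ →* Equiv.Perm X) (σ : Representation k Γ W) :
    Representation k Γ (X → W) where
  toFun γ :=
    { toFun := fun f x => σ γ (f (a γ⁻¹ x))
      map_add' := by
        intro f f'
        funext x
        simp
      map_smul' := by
        intro c f
        funext x
        simp }
  map_one' := by
    apply LinearMap.ext
    intro f
    funext x
    simp
  map_mul' := by
    intro γ δ
    apply LinearMap.ext
    intro f
    funext x
    simp [mul_inv_rev]

theorem F4_rep_apply {k : Type*} [Field k] {Γ : Type*} [Group Γ] {W : Type*} [AddCommGroup W]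
    [Module k W] {X : Type*} (a : Γ →* Equiv.Perm X) (σ : Representation k Γ W) (γ : Γ)
    (f : X → W) (x : X) : F4_rep a σ γ f x = σ γ (f (a γ⁻¹ x)) := rfl

theorem F4_equivFunOn_eq {k : Type*} [Field k] {Γ : Type*} [Group Γ] {W : Type*} [AddCommGroup W]
    [Module k W] {X : Type*} (a : Γ →* Equiv.Perm X) (σ : Representation k Γ W) :
    equivFunOn ⊤ a σ = invOf ⊤ (F4_rep a σ) := by
  ext f
  rw [mem_equivFunOn, mem_invOf]
  constructor
  · intro h v hv
    funext x
    rw [F4_rep_apply, ← h v hv, ← Equiv.Perm.mul_apply, ← map_mul, mul_inv_cancel, map_one,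
      Equiv.Perm.one_apply]
  · intro h v hv x
    have h1 := congrFun (h v hv) (a v x)
    rw [F4_rep_apply, ← Equiv.Perm.mul_apply, ← map_mul, inv_mul_cancel, map_one,
      Equiv.Perm.one_apply] at h1
    exact h1.symm

/-- **(F4)** `dim Fun_Γ(X, Z^*) = dim Fun_Γ(X, Z)` for finite `X`.
PROOF.  `Γ` acts on `X → Z` by `(γ f) x = σ γ (f (a γ⁻¹ x))` (define this representation `R σ`);
`equivFunOn ⊤ a σ = invOf ⊤ (R σ)`;  `(X → Z^*) ≃ₗ (X → Z)^*`, `f ↦ (h ↦ ∑ x, f x (h x))` (bijective since `X` is finite: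
injective + equal dimensions, or the explicit inverse `Λ ↦ (x ↦ (z ↦ Λ (Pi.single x z)))`) intertwines `R σ.dual`
with `(R σ).dual` (reindex the sum by `a γ`), so it maps `invOf ⊤ (R σ.dual)` onto `invOf ⊤ (R σ).dual`;
conclude by `finrank_invOf_dual` applied to `R σ`. -/
theorem finrank_equivFunOn_dual [Finite X] (hΓ : (Nat.card Γ : k) ≠ 0) (a : Γ →* Equiv.Perm X)
    (σ : Representation k Γ Z) :
    finrank k (equivFunOn ⊤ a σ.dual) = finrank k (equivFunOn ⊤ a σ) := by
  classical
  have := Fintype.ofFinite X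
  let E : (X → Dual k Z) ≃ₗ[k] Dual k (X → Z) := LinearMap.lsum k (fun _ : X => Z) k
  have hE : ∀ (f : X → Dual k Z) (h : X → Z), E f h = ∑ x, f x (h x) := by
    intro f h
    simp [E, LinearMap.lsum_apply]
  have hint : ∀ (γ : Γ) (f : X → Dual k Z),
      E (F4_rep a σ.dual γ f) = (F4_rep a σ).dual γ (E f) := by
    intro γ f
    apply LinearMap.ext
    intro h
    rw [Representation.dual_apply, Module.Dual.transpose_apply, LinearMap.comp_apply, hE, hE]
    rw [← Equiv.sum_comp (a γ)]
    refine Finset.sum_congr rfl fun x _ => ?_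
    rw [F4_rep_apply, F4_rep_apply, Representation.dual_apply, Module.Dual.transpose_apply,
      LinearMap.comp_apply, ← Equiv.Perm.mul_apply, ← map_mul, inv_mul_cancel, map_one,
      Equiv.Perm.one_apply, inv_inv]
  have hmap : (invOf ⊤ (F4_rep a σ.dual)).map (E : (X → Dual k Z) →ₗ[k] Dual k (X → Z))
      = invOf ⊤ (F4_rep a σ).dual := by
    ext y
    rw [Submodule.mem_map_equiv, mem_invOf, mem_invOf]
    refine forall₂_congr fun v _ => ?_
    rw [← E.injective.eq_iff, hint, LinearEquiv.apply_symm_apply]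
  rw [F4_equivFunOn_eq, F4_equivFunOn_eq, ← finrank_invOf_dual hΓ (F4_rep a σ), ← hmap,
    LinearEquiv.finrank_map_eq]

end Fermat.Agent.S56.G2.D

end
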