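/-
S56 (G2)(D): the action of `GQ` on a number field `N ⊆ Qbar` which is Galois over `ℚ`, on its finite places over `S`
and on its infinite places.  DEFINITIONS.
-/
import Fermat.Agent.S56.G2.D.Defs
import Fermat.Agent.PT.Koch.PlaceSys
import Fermat.Agent.PT.Hens.Restrict
import Fermat.Agent.PT.Base.Conj
import Fermat.Prelude.Def_GaloisRep_ComplexConjugation

set_option autoImplicit false

open NumberField IsDedekindDomain Fermat.Agent.CFT Fermat.Agent.PT ExtCitation

noncomputable section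

namespace Fermat.Agent.S56.G2.D

variable (N : Type*) [Field N] [NumberField N] [Algebra N Qbar] [IsGalois ℚ N]

/-- Restriction `GQ → Gal(N/ℚ)`. -/
def rN : GQ →* (N ≃ₐ[ℚ] N) := AlgEquiv.restrictNormalHom N

variable {N}

theorem rN_spec (g : GQ) (z : N) : algebraMap N Qbar (rN N g z) = g (algebraMap N Qbar z) :=
  AlgEquiv.restrictNormal_commutes g N z

theorem mem_Vof_rat (g : GQ) : g ∈ Vof ℚ := fun x => by simp

theorem rN_eq_resHom (g : GQ) : rN N g = resHom ℚ N ⟨g, mem_Vof_rat g⟩ := by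
  ext z
  apply (algebraMap N Qbar).injective
  rw [rN_spec, resHom_spec]

theorem rN_eq_one_iff (g : GQ) : rN N g = 1 ↔ g ∈ Vof N := by
  rw [rN_eq_resHom, resHom_eq_one_iff]

theorem rN_eq_one_of_mem : ∀ u ∈ Vof N, rN N u = 1 := fun u hu => (rN_eq_one_iff u).2 hu

variable (N)

/-- The places of `N` over `S`, as a `Gal(N/ℚ)`-set. -/
def SNsub (S : Finset Nat.Primes) : SubMulAction (N ≃ₐ[ℚ] N) (Pl N) where
  carrier := Koch.SN N S
  smul_mem' := by
    rintro σ w ⟨q, hq, hw⟩
    exact ⟨q, hq, (over_smul_iff σ w q).2 hw⟩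

/-- The action of `GQ` on the places of `N` over `S`. -/
def aF (S : Finset Nat.Primes) : GQ →* Equiv.Perm (SNsub N S) :=
  (MulAction.toPermHom (N ≃ₐ[ℚ] N) (SNsub N S)).comp (rN N)

/-- The action of `GQ` on the infinite places of `N`. -/
def aI : GQ →* Equiv.Perm (InfinitePlace N) :=
  (MulAction.toPermHom (N ≃ₐ[ℚ] N) (InfinitePlace N)).comp (rN N)

variable {N}

@[simp] theorem coe_aF (S : Finset Nat.Primes) (g : GQ) (x : SNsub N S) :
    ((aF N S g x : SNsub N S) : Pl N) = rN N g • (x : Pl N) := rfl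

@[simp] theorem aI_apply (g : GQ) (w : InfinitePlace N) : aI N g w = rN N g • w := rfl

theorem aF_eq_one_of_mem (S : Finset Nat.Primes) : ∀ u ∈ Vof N, aF N S u = 1 := by
  intro u hu
  rw [aF, MonoidHom.comp_apply, rN_eq_one_of_mem u hu, map_one]

theorem aI_eq_one_of_mem : ∀ u ∈ Vof N, aI N u = 1 := by
  intro u hu
  rw [aI, MonoidHom.comp_apply, rN_eq_one_of_mem u hu, map_one]

variable (N)

/-- The base point over `ℓ ∈ S`: the place of `N` below `primeLocalPlace ℓ`. -/
def x0F {S : Finset Nat.Primes} (ℓ : ↥S) : SNsub N S :=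
  ⟨plOf N (primeLocalPlace ℓ.1) ⟨ℓ.1, Base.liesOver_Pl0 ℓ.1⟩,
    (Koch.plOf_mem_SN_iff _).2 ⟨ℓ.1, ℓ.2, Base.liesOver_Pl0 ℓ.1⟩⟩

/-- The base point at infinity: the infinite place of `N` induced by `complexEmbedding`. -/
def x0I : InfinitePlace N :=
  InfinitePlace.mk (complexEmbedding.toRingHom.comp (algebraMap N Qbar))

end Fermat.Agent.S56.G2.D

end
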