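/-
S56 (G2)(D): the Kummer map `κ : O_{N,S}^× → H¹_S(Vof N, μ_p)`.  DEFINITIONS.
-/
import Fermat.Agent.S56.G2.D.GalAct
import Fermat.Agent.PT.Koch.Sha1

set_option autoImplicit false
set_option linter.unusedSectionVars false

open NumberField IsDedekindDomain Fermat.Agent.CFT Fermat.Agent.PT Fermat.Agent.PT.Arith
  Fermat.Agent.PT.Koch ExtCitation

noncomputable section

namespace Fermat.Agent.S56.G2.D

variable {N : Type*} [Field N] [NumberField N] [Algebra N Qbar]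
variable {p : ℕ} [Fact p.Prime] {ι : ZMod p →+ Additive Qbarˣ}
  (K : KummerSetup Lall p multRep (cycRep p) ι) {S : Finset Nat.Primes}

theorem SU_le_SigS (T : Set (Pl N)) : SU T ≤ SigS N p T := by
  intro x hx
  rw [mem_SigS_iff]
  intro v hv
  rw [(mem_SU_iff T x).1 hx v hv]
  exact dvd_zero _

variable {ζ : N} (hζ : IsPrimitiveRoot ζ p) (hpS : pPrime p ∈ S) (hU : Vof N ∈ LS S)
  (hV1 : Vof N ≤ G1 p)

/-- The Kummer cocycle of an `S`-unit. -/
def kapZ (x : ↥(SU (SN N S))) : Z1 (LS S) (Vof N) (cycRep p) :=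
  ⟨K.kum (emb (x : Nˣ)),
    kum_mem_Z1_LS K hζ hpS (LevelSystem.isOpen_of_mem hU) hV1 (SU_le_SigS _ x.2)⟩

theorem kapZ_mul (x y : ↥(SU (SN N S))) :
    H1.mk (LS S) (Vof N) (cycRep p) (kapZ K hζ hpS hU hV1 (x * y)) =
      H1.mk (LS S) (Vof N) (cycRep p) (kapZ K hζ hpS hU hV1 x) +
        H1.mk (LS S) (Vof N) (cycRep p) (kapZ K hζ hpS hU hV1 y) := by
  rw [← map_add, ← sub_eq_zero, ← map_sub, H1.mk_eq_zero_iff]
  have hfix : ∀ x : Nˣ, ∀ v ∈ Vof N, multRep v (emb x) = emb x := fun x v hv => multRep_emb hv x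
  rw [mem_B1_LS_iff hV1 (Subtype.coe_prop _)]
  show K.kum (emb ((x * y : ↥(SU (SN N S))) : Nˣ)) -
      (K.kum (emb (x : Nˣ)) + K.kum (emb (y : Nˣ))) ∈ _
  rw [Subgroup.coe_mul, emb_mul]
  exact K.kum_add (hfix _) (hfix _)

/-- `κ : O_{N,S}^× → H¹_S(Vof N, μ_p)`. -/
def kap : ↥(SU (SN N S)) →* Multiplicative (H1 (LS S) (Vof N) (cycRep p)) :=
  MonoidHom.mk' (fun x => Multiplicative.ofAdd (H1.mk (LS S) (Vof N) (cycRep p) (kapZ K hζ hpS hU hV1 x)))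
    (fun x y => by rw [kapZ_mul, ofAdd_add])

theorem kap_apply (x : ↥(SU (SN N S))) :
    kap K hζ hpS hU hV1 x =
      Multiplicative.ofAdd (H1.mk (LS S) (Vof N) (cycRep p) (kapZ K hζ hpS hU hV1 x)) := rfl

end Fermat.Agent.S56.G2.D

end
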