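/-
S56 (G2)(D), leaf Kum1: `κ : O_{N,S}^× → H¹_S(Vof N, μ_p)` is surjective when `Cl_S(N) = 0`, its kernel is the group of
`p`-th powers; `H¹_S(Vof N, μ_p)` is finite.
-/
import Fermat.Agent.S56.G2.D.KumDefs
import Fermat.Agent.CFT.SUnitRankMain

set_option autoImplicit false
set_option linter.unusedSectionVars false

open NumberField IsDedekindDomain Fermat.Agent.CFT Fermat.Agent.PT Fermat.Agent.PT.Arith
  Fermat.Agent.PT.Koch ExtCitation

noncomputable section

namespace Fermat.Agent.S56.G2.D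

variable {N : Type*} [Field N] [NumberField N] [Algebra N Qbar]
variable {p : ℕ} [Fact p.Prime] {ι : ZMod p →+ Additive Qbarˣ}
  (K : KummerSetup Lall p multRep (cycRep p) ι) {S : Finset Nat.Primes}
variable {ζ : N} (hζ : IsPrimitiveRoot ζ p) (hpS : pPrime p ∈ S) (hU : Vof N ∈ LS S)
  (hV1 : Vof N ≤ G1 p)

/-- (`kap_apply`, `ofAdd_eq_one`, `H1.mk_eq_zero_iff`, `mem_B1_LS_iff`, `kum_mem_B1_global_iff`; same pattern as `hker` in
`Koch.card_Sha1`, `PT/Koch/Sha1.lean`.) -/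
theorem kap_eq_one_iff (x : ↥(SU (SN N S))) :
    kap K hζ hpS hU hV1 x = 1 ↔ (x : Nˣ) ∈ PW p Nˣ := by
  rw [kap_apply, ofAdd_eq_one, H1.mk_eq_zero_iff, mem_B1_LS_iff hV1 (Subtype.coe_prop _)]
  exact kum_mem_B1_global_iff K (x : Nˣ)

/-- For `f ∈ Z1 (LS S) (Vof N) cyc`: `exists_kum_global` (after `Sha1.Z1_LS_le_Lall`) gives `a : Nˣ` with
`f - K.kum (emb a) ∈ B1 Lall ..`; `a ∈ SigS` (`mem_SigS_of_kum`); `ClCountB_exists_mul_pow_mem_SU hgen` gives `y` with
`x := a * y ^ p ∈ SU`; `K.kum (emb x) - K.kum (emb a) ∈ B1 Lall` (`kum_sub_mem_B1_of_eq_add_smul` with `emb_mul`, `emb_pow`,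
`multRep_emb`); finally `mem_B1_LS_iff` to come back to `B1 (LS S)`. -/
theorem kap_surjective (hgen : GenCl (SN N S)) : Function.Surjective (kap K hζ hpS hU hV1) := by
  have hp0 : p ≠ 0 := (Fact.out : p.Prime).ne_zero
  intro c
  obtain ⟨⟨f, hf⟩, hc⟩ := H1.mk_surjective (LS S) (Vof N) (cycRep p) (Multiplicative.toAdd c)
  obtain ⟨a, ha⟩ := exists_kum_global K (Sha1.Z1_LS_le_Lall hf)
  have haS : a ∈ SigS N p (SN N S) := mem_SigS_of_kum K hζ hpS hV1 hf ha
  obtain ⟨y, hy⟩ := ClCountB_exists_mul_pow_mem_SU hgen p hp0 a ((mem_SigS_iff p _ a).1 haS)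
  refine ⟨⟨a * y ^ p, hy⟩, ?_⟩
  rw [kap_apply, ← ofAdd_toAdd c, ← hc]
  congr 1
  rw [← sub_eq_zero, ← map_sub, H1.mk_eq_zero_iff, mem_B1_LS_iff hV1 (Subtype.coe_prop _)]
  show K.kum (emb (a * y ^ p)) - f ∈ B1 Lall (Vof N) (cycRep p)
  have h1 : K.kum (emb (a * y ^ p)) - K.kum (emb a) ∈ B1 Lall (Vof N) (cycRep p) :=
    kum_sub_mem_B1_of_eq_add_smul K hV1 (fun w hw => multRep_emb hw a) (fun w hw => multRep_emb hw y)
      (by rw [emb_mul, emb_pow])
  have h2 := sub_mem h1 ha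
  have h3 : K.kum (emb (a * y ^ p)) - K.kum (emb a) - (f - K.kum (emb a)) =
      K.kum (emb (a * y ^ p)) - f := by abel
  rwa [h3] at h2

include K hζ hpS hU hV1 in
/-- `H¹` is a quotient of `SU / SU^p`, which is finite (`relIndex_pow_SU p hp2 ζ hζ (SN N S) finite_SN` is `≠ 0`): the kernel of
`kap` contains `(SU).map (powMonoidHom p)` (as a subgroup of `SU`), so it has finite index, the image `= ⊤` is finite
(`Subgroup.index_ker`, `Nat.finite_of_card_ne_zero`, pattern of `Koch.card_Sha1`); a finite module is `Module.Finite`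
(`Module.Finite.of_finite`). -/
theorem finite_H1_level (hp2 : p ≠ 2) (hgen : GenCl (SN N S)) :
    Module.Finite (ZMod p) (H1 (LS S) (Vof N) (cycRep p)) := by
  have hpp : p.Prime := Fact.out
  set Φ := kap K hζ hpS hU hV1 with hΦ
  have hsurj : Function.Surjective Φ := kap_surjective K hζ hpS hU hV1 hgen
  have hle : ((SU (SN N S)).map (powMonoidHom p : Nˣ →* Nˣ)).subgroupOf (SU (SN N S)) ≤ Φ.ker := by
    intro x hx
    rw [Subgroup.mem_subgroupOf] at hx
    obtain ⟨y, -, hy⟩ := hx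
    rw [MonoidHom.mem_ker, hΦ, kap_eq_one_iff]
    exact (mem_PW_iff p _).2 ⟨y, hy⟩
  have hidx : (((SU (SN N S)).map (powMonoidHom p : Nˣ →* Nˣ)).subgroupOf (SU (SN N S))).index ≠ 0 := by
    have h := relIndex_pow_SU p hp2 ζ hζ (SN N S) finite_SN
    rw [Subgroup.relIndex] at h
    rw [h]
    exact pow_ne_zero _ hpp.ne_zero
  have hker : Φ.ker.index ≠ 0 := fun h0 => hidx (by
    have := Subgroup.index_dvd_of_le hle
    rw [h0] at this
    exact Nat.eq_zero_of_zero_dvd this)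
  have hcard : Nat.card (Multiplicative (H1 (LS S) (Vof N) (cycRep p))) ≠ 0 := by
    rw [Subgroup.index_ker, MonoidHom.range_eq_top.2 hsurj] at hker
    rwa [Nat.card_congr Subgroup.topEquiv.toEquiv] at hker
  have hfin : Finite (Multiplicative (H1 (LS S) (Vof N) (cycRep p))) :=
    Nat.finite_of_card_ne_zero hcard
  have : Finite (H1 (LS S) (Vof N) (cycRep p)) := hfin
  exact Module.Finite.of_finite

end Fermat.Agent.S56.G2.D

end
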