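/-
S56 (G2)(D), leaf Kum2: `κ` is `GQ`-equivariant.
-/
import Fermat.Agent.S56.G2.D.KumDefs

set_option autoImplicit false
set_option linter.unusedSectionVars false

open NumberField IsDedekindDomain Fermat.Agent.CFT Fermat.Agent.PT Fermat.Agent.PT.Arith
  Fermat.Agent.PT.Koch ExtCitation

noncomputable section

namespace Fermat.Agent.S56.G2.D

section abstract

variable {G : Type*} [Group G] {L : LevelSystem G} {p : ℕ} [Fact p.Prime]
variable {A : Type*} [AddCommGroup A] {ρ : Representation ℤ G A}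
variable {T : Type*} [AddCommGroup T] [Module (ZMod p) T] {τ : Representation (ZMod p) G T}
variable {ι : T →+ A} (K : KummerSetup L p ρ τ ι)

/-- `eK b g = ρ g (s (ρ g⁻¹ b))` (`PT/B/Setup.lean`), hence `ρ v (eK b (v⁻¹ g)) = eK (ρ v b) g`. -/
theorem eK_conj (v g : G) (b : A) : ρ v (K.eK b (v⁻¹ * g)) = K.eK (ρ v b) g := by
  unfold KummerSetup.eK
  rw [← Module.End.mul_apply (ρ v), ← map_mul, mul_inv_cancel_left,
    ← Module.End.mul_apply (ρ g⁻¹) (ρ v), ← map_mul, mul_inv_rev, inv_inv]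

/-- Apply the injective `ι` (`K.inj`): `ι (τ v t) = ρ v (ι t)` (`K.equiv`), `ι (kum b g₀ g₁) = eK b g₁ - eK b g₀` (`K.ι_kum`),
`eK_conj`. -/
theorem tw1_kum (v : G) (b : A) : tw1 τ v (K.kum b) = K.kum (ρ v b) := by
  funext g₀ g₁
  apply K.inj
  rw [tw1_apply, K.equiv, K.ι_kum, K.ι_kum, map_sub, eK_conj, eK_conj]

end abstract

variable {N : Type*} [Field N] [NumberField N] [Algebra N Qbar] [IsGalois ℚ N]
variable {p : ℕ} [Fact p.Prime] {ι : ZMod p →+ Additive Qbarˣ}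
  (K : KummerSetup Lall p multRep (cycRep p) ι) {S : Finset Nat.Primes}
variable {ζ : N} (hζ : IsPrimitiveRoot ζ p) (hpS : pPrime p ∈ S) (hU : Vof N ∈ LS S)
  (hV1 : Vof N ≤ G1 p)

/-- (`multRep_apply`, `emb`, `rN_spec`.) -/
theorem multRep_emb_of_eq (g : GQ) {x y : Nˣ} (h : (y : N) = rN N g (x : N)) :
    multRep g (emb x) = emb y := by
  unfold emb
  rw [multRep_apply]
  congr 1
  ext
  show g (algebraMap N Qbar (x : N)) = algebraMap N Qbar (y : N)
  rw [h, rN_spec]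

/-- **(Kum2)** (`kap_apply`, `twH1_mk`, `tw1_kum`, `multRep_emb_of_eq`; the two cocycles are EQUAL.) -/
theorem kap_equivariant (g : GQ) (x y : ↥(SU (SN N S)))
    (h : (((y : Nˣ) : N)) = rN N g ((x : Nˣ) : N)) :
    kap K hζ hpS hU hV1 y = Multiplicative.ofAdd
      (twH1 (LS S) hU (cycRep p) g (Multiplicative.toAdd (kap K hζ hpS hU hV1 x))) := by
  rw [kap_apply, kap_apply, toAdd_ofAdd, twH1_mk]
  congr 2
  apply Subtype.ext
  show K.kum (emb (y : Nˣ)) = tw1 (cycRep p) g (K.kum (emb (x : Nˣ)))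
  rw [tw1_kum, multRep_emb_of_eq g h]

end Fermat.Agent.S56.G2.D

end
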