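/-
S56 (G2)(D), leaf Minus: `(coind_V (ρ^*(ω))^*)^{⟨cc⟩} ≅ (coind_V ρ)^{cc = -1}` when `ω cc = -1`.
-/
import Fermat.Agent.S56.G2.D.Defs

set_option autoImplicit false

open Module Fermat.Agent.PT

noncomputable section

namespace Fermat.Agent.S56.G2.D

variable {k : Type*} [Field k] {G : Type*} [Group G]

section MinusAux

variable {Y : Type*} [AddCommGroup Y] [Module k Y] [Module.Finite k Y]

/-- `F ↦ (g ↦ (ω g)⁻¹ • ev (F g))` on all functions. -/
def Minus_e (ω : G →* kˣ) (Y : Type*) [AddCommGroup Y] [Module k Y] [Module.Finite k Y] :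
    (G → Y) ≃ₗ[k] (G → Module.Dual k (Module.Dual k Y)) :=
  LinearEquiv.piCongrRight fun g =>
    (Module.evalEquiv k Y).trans (LinearEquiv.smulOfUnit (ω g)⁻¹)

lemma Minus_e_apply (ω : G →* kˣ) (f : G → Y) (g : G) :
    Minus_e ω Y f g = (((ω g)⁻¹ : kˣ) : k) • Module.evalEquiv k Y (f g) := rfl

lemma Minus_sigma_ev (ρ : Representation k G Y) (ω : G →* kˣ) (g : G) (y : Y) :
    (ρ.dual.twist ω).dual g (Module.evalEquiv k Y y)
      = (((ω g)⁻¹ : kˣ) : k) • Module.evalEquiv k Y (ρ g y) := by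
  ext lam
  rw [Representation.dual_apply, Module.Dual.transpose_apply, LinearMap.comp_apply,
    Module.evalEquiv_apply, Module.Dual.eval_apply, Representation.twist_apply_apply,
    LinearMap.smul_apply, Representation.dual_apply, Module.Dual.transpose_apply,
    LinearMap.comp_apply, inv_inv, LinearMap.smul_apply, Module.evalEquiv_apply,
    Module.Dual.eval_apply, map_inv]

lemma Minus_smul_ev_inj (u : kˣ) {a b : Y} :
    (u : k) • Module.evalEquiv k Y a = (u : k) • Module.evalEquiv k Y b ↔ a = b := by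
  constructor
  · intro h
    have h1 := smul_right_injective _ u.ne_zero h
    exact (Module.evalEquiv k Y).injective h1
  · rintro rfl; rfl

lemma Minus_equivariant_iff (V : Subgroup G) (ρ : Representation k G Y) (ω : G →* kˣ)
    (f : G → Y) :
    Equivariant0 V (ρ.dual.twist ω).dual (Minus_e ω Y f) ↔ Equivariant0 V ρ f := by
  refine forall_congr' fun v => forall_congr' fun _ => forall_congr' fun g => ?_
  rw [Minus_e_apply, Minus_e_apply, map_smul, Minus_sigma_ev, smul_smul, ← Units.val_mul,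
    ← mul_inv_rev, ← map_mul, Minus_smul_ev_inj]

lemma Minus_inv_iff {U W : Subgroup G} (hWU : W ≤ U) (ω : G →* kˣ) (hω : ∀ u ∈ U, ω u = 1)
    (f : G → Y) :
    (∀ g₀, ∀ u₀ ∈ W, Minus_e ω Y f (g₀ * u₀) = Minus_e ω Y f g₀) ↔
      ∀ g₀, ∀ u₀ ∈ W, f (g₀ * u₀) = f g₀ := by
  refine forall_congr' fun g => forall_congr' fun u => forall_congr' fun hu => ?_
  rw [Minus_e_apply, Minus_e_apply, map_mul, hω u (hWU hu), mul_one, Minus_smul_ev_inj]

lemma Minus_smooth_iff (L : LevelSystem G) {U : Subgroup G} (hU : U ∈ L) (ω : G →* kˣ)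
    (hω : ∀ u ∈ U, ω u = 1) (f : G → Y) :
    Smooth0 L (Minus_e ω Y f) ↔ Smooth0 L f := by
  constructor
  · rintro ⟨W, hW, h⟩
    obtain ⟨W', hW', h1, h2⟩ := L.directed' W hW U hU
    exact ⟨W', hW', (Minus_inv_iff h2 ω hω f).mp fun g u hu => h g u (h1 hu)⟩
  · rintro ⟨W, hW, h⟩
    obtain ⟨W', hW', h1, h2⟩ := L.directed' W hW U hU
    exact ⟨W', hW', (Minus_inv_iff h2 ω hω f).mpr fun g u hu => h g u (h1 hu)⟩

lemma Minus_mem_iff (L : LevelSystem G) {U : Subgroup G} (hU : U ∈ L) (V : Subgroup G)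
    (ρ : Representation k G Y) (ω : G →* kˣ) (hω : ∀ u ∈ U, ω u = 1) (f : G → Y) :
    Minus_e ω Y f ∈ X0 L V (ρ.dual.twist ω).dual ↔ f ∈ X0 L V ρ := by
  rw [mem_X0, mem_X0, Minus_equivariant_iff, Minus_smooth_iff L hU ω hω]

/-- The isomorphism `coind_V ρ ≃ coind_V σ` of vector spaces. -/
def Minus_T (L : LevelSystem G) {U : Subgroup G} (hU : U ∈ L) (V : Subgroup G)
    (ρ : Representation k G Y) (ω : G →* kˣ) (hω : ∀ u ∈ U, ω u = 1) :
    X0 L V ρ ≃ₗ[k] X0 L V (ρ.dual.twist ω).dual :=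
  LinearEquiv.ofSubmodules (Minus_e ω Y) _ _ (by
    ext x
    rw [Submodule.mem_map_equiv, ← Minus_mem_iff L hU V ρ ω hω, LinearEquiv.apply_symm_apply])

lemma Minus_T_apply (L : LevelSystem G) {U : Subgroup G} (hU : U ∈ L) (V : Subgroup G)
    (ρ : Representation k G Y) (ω : G →* kˣ) (hω : ∀ u ∈ U, ω u = 1) (F : X0 L V ρ) (g : G) :
    (Minus_T L hU V ρ ω hω F : G → Module.Dual k (Module.Dual k Y)) g
      = (((ω g)⁻¹ : kˣ) : k) • Module.evalEquiv k Y ((F : G → Y) g) := rfl

end MinusAux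

lemma Minus_mem_invOf_zpowers {A : Type*} [AddCommGroup A] [Module k A] (τ : Representation k G A)
    (c : G) (a : A) : a ∈ invOf (Subgroup.zpowers c) τ ↔ τ c a = a := by
  constructor
  · intro h
    exact h c (Subgroup.mem_zpowers c)
  · intro h
    let S : Subgroup G :=
      { carrier := {g | τ g a = a}
        one_mem' := by simp
        mul_mem' := by
          intro x y hx hy
          show τ (x * y) a = a
          rw [map_mul, Module.End.mul_apply, hy, hx]
        inv_mem' := by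
          intro x hx
          show τ x⁻¹ a = a
          have hx' : τ x a = a := hx
          calc τ x⁻¹ a = τ x⁻¹ (τ x a) := by rw [hx']
            _ = a := by rw [← Module.End.mul_apply, ← map_mul, inv_mul_cancel, map_one,
                  Module.End.one_apply] }
    have hle : Subgroup.zpowers c ≤ S := by
      rw [Subgroup.zpowers_le]
      exact h
    exact fun v hv => hle hv

/-- **(Minus)**
PROOF.  `ev := Module.evalEquiv k Y : Y ≃ₗ Dual k (Dual k Y)`, `σ := (ρ.dual.twist ω).dual`.  One checks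
`σ g (ev y) = (ω g)⁻¹ • ev (ρ g y)`  [`σ g Λ = Λ ∘ (ρ.dual.twist ω g⁻¹)`, `(ρ.dual.twist ω g⁻¹ lam) y = ω g⁻¹ * lam (ρ g y)`].
Define `T : X0 L V ρ → X0 L V σ`, `(T F) g = (ω g)⁻¹ • ev (F g)`.
* `T F` is `V`-equivariant by the formula above; smooth: if `F` is right invariant under the level `W`, take a level
  `W' ≤ W, U` (`L.directed'`), on which `ω` is trivial.
* `T` is a linear bijection (inverse `(T' F') g = ω g • ev.symm (F' g)`).
* `coind cc (T F) = - T (coind cc F)` since `ω (g * cc) = - ω g`.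
Hence `T F` is fixed by `cc` iff `coind cc F = -F` iff `F ∈ ker (coind cc + 1)`; and a vector is fixed by `zpowers cc` iff it is fixed
by `cc` (the stabiliser is a subgroup: `Subgroup.zpowers_le`). -/
theorem finrank_invOf_zpowers_coind (L : LevelSystem G) {U : Subgroup G} (hU : U ∈ L) (V : Subgroup G)
    {Y : Type*} [AddCommGroup Y] [Module k Y] [Module.Finite k Y] (ρ : Representation k G Y)
    (ω : G →* kˣ) (hω : ∀ u ∈ U, ω u = 1) (cc : G) (hcc : (ω cc : k) = -1) :
    finrank k (invOf (A := X0 L V (ρ.dual.twist ω).dual) (Subgroup.zpowers cc)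
        (coind L V (ρ.dual.twist ω).dual)) =
      finrank k (LinearMap.ker (coind L V ρ cc + 1)) := by
  rw [← LinearEquiv.finrank_map_eq (Minus_T L hU V ρ ω hω)]
  have hmap : (LinearMap.ker (coind L V ρ cc + 1)).map
      (Minus_T L hU V ρ ω hω : X0 L V ρ →ₗ[k] X0 L V (ρ.dual.twist ω).dual)
      = invOf (A := X0 L V (ρ.dual.twist ω).dual) (Subgroup.zpowers cc)
        (coind L V (ρ.dual.twist ω).dual) := ?_
  · rw [hmap]
  have hccinv : (((ω cc)⁻¹ : kˣ) : k) = -1 := by
    rw [Units.val_inv_eq_inv_val, hcc]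
    norm_num
  have key : ∀ F : X0 L V ρ, F ∈ LinearMap.ker (coind L V ρ cc + 1) ↔
      Minus_T L hU V ρ ω hω F ∈ invOf (A := X0 L V (ρ.dual.twist ω).dual) (Subgroup.zpowers cc)
        (coind L V (ρ.dual.twist ω).dual) := by
    intro F
    rw [Minus_mem_invOf_zpowers, LinearMap.mem_ker, Subtype.ext_iff, Subtype.ext_iff,
      funext_iff, funext_iff]
    refine forall_congr' fun g => ?_
    rw [coind_apply_coe, Minus_T_apply, Minus_T_apply, map_mul, mul_inv_rev, Units.val_mul, hccinv,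
      neg_one_mul]
    have h1 : ∀ (a : k) (x : Module.Dual k (Module.Dual k Y)), (-a) • x = a • (-x) := by
      intro a x
      module
    rw [h1, ← map_neg, Minus_smul_ev_inj]
    show (F : G → Y) (g * cc) + (F : G → Y) g = 0 ↔ _
    rw [add_eq_zero_iff_neg_eq]
  ext x
  rw [Submodule.mem_map_equiv, key, LinearEquiv.apply_symm_apply]

end Fermat.Agent.S56.G2.D

end
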