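/-
S56 (G2)(D), leaf Mu: `Hom_V(ρ^*(ω), k(ω)) ≅ Y^V`.
-/
import Fermat.Agent.S56.G2.D.Defs

set_option autoImplicit false

open Module Fermat.Agent.PT

noncomputable section

namespace Fermat.Agent.S56.G2.D

variable {k : Type*} [Field k] {G : Type*} [Group G]

/-- **(Mu)**
PROOF.  `Module.evalEquiv k Y : Y ≃ₗ Dual k (Dual k Y)`.  For `y : Y`, `ev y ∈ EHomOn V (ρ.dual.twist ω) c` iff for all `v ∈ V`, `lam`:
`(ρ.dual.twist ω v lam) y = c v (lam y)`, i.e. `ω v * lam (ρ v⁻¹ y) = ω v * lam y` (`Representation.twist_apply_apply`,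
`Representation.dual_apply`, `Module.Dual.transpose_apply`), iff `ρ v⁻¹ y = y` for all `v ∈ V` (linear forms separate points:
`Module.forall_dual_apply_eq_zero_iff` / injectivity of `evalEquiv`; `ω v` is a unit) iff `y ∈ invOf V ρ`.
So `evalEquiv` restricts to a linear equivalence `invOf V ρ ≃ₗ EHomOn V .. c`
(`LinearEquiv.ofSubmodules` / `Submodule.map`, `LinearEquiv.finrank_map_eq`). -/
theorem finrank_EHomOn_dualTwist_chi (V : Subgroup G) {Y : Type*} [AddCommGroup Y] [Module k Y]
    [Module.Finite k Y] (ρ : Representation k G Y) (ω : G →* kˣ) (c : Representation k G k)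
    (hcω : ∀ g a, c g a = (ω g : k) * a) :
    finrank k (EHomOn V (ρ.dual.twist ω) c) = finrank k (invOf V ρ) := by
  have htw : ∀ (g : G) (lam : Module.Dual k Y) (y : Y),
      (ρ.dual.twist ω g lam) y = (ω g : k) * lam (ρ g⁻¹ y) := by
    intro g lam y
    rw [Representation.twist_apply_apply, LinearMap.smul_apply, Representation.dual_apply,
      Module.Dual.transpose_apply, LinearMap.comp_apply, smul_eq_mul]
  have hev : ∀ (y : Y) (lam : Module.Dual k Y), Module.evalEquiv k Y y lam = lam y :=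
    fun _ _ => rfl
  refine (LinearEquiv.ofSubmodules (Module.evalEquiv k Y) (invOf V ρ)
    (EHomOn V (ρ.dual.twist ω) c) ?_).finrank_eq.symm
  ext φ
  rw [Submodule.mem_map]
  constructor
  · rintro ⟨y, hy, rfl⟩
    rw [mem_EHomOn]
    intro v hv lam
    show Module.evalEquiv k Y y _ = c v (Module.evalEquiv k Y y lam)
    rw [hev, hev, htw, hcω, mem_invOf.1 hy v⁻¹ (V.inv_mem hv)]
  · intro hφ
    refine ⟨(Module.evalEquiv k Y).symm φ, ?_, (Module.evalEquiv k Y).apply_symm_apply φ⟩
    obtain ⟨y, rfl⟩ := (Module.evalEquiv k Y).surjective φ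
    rw [LinearEquiv.symm_apply_apply, mem_invOf]
    intro v hv
    rw [← sub_eq_zero, ← Module.forall_dual_apply_eq_zero_iff k]
    intro lam
    have h1 := mem_EHomOn.1 hφ v⁻¹ (V.inv_mem hv) lam
    rw [hev, hev, htw, hcω, inv_inv] at h1
    rw [map_sub, sub_eq_zero]
    exact mul_left_cancel₀ (Units.ne_zero _) h1

end Fermat.Agent.S56.G2.D

end
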