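/-
S56 (G2)(D), leaf Orbit: `V`-equivariant functions on a `G`-set `X = ⊔_i G x_i` with `Stab(x_i) = U D_i`
are the `D_i`-invariants of the coinduced module `coind L V σ`.
-/
import Fermat.Agent.S56.G2.D.Defs
import Fermat.Agent.PT.Duality.CoindFin

set_option autoImplicit false

open Module Fermat.Agent.PT

noncomputable section

namespace Fermat.Agent.S56.G2.D

variable {k : Type*} [Field k] {G : Type*} [Group G]

/-- the values of an invariant family only depend on the point `a g (x₀ i)`. -/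
theorem Orbit_indep (L : LevelSystem G) {U V : Subgroup G} (hU : U ∈ L) (hUV : U ≤ V)
    {Z : Type*} [AddCommGroup Z] [Module k Z] (σ : Representation k G Z)
    (hσ : ∀ u ∈ U, σ u = 1) {X : Type*} (a : G →* Equiv.Perm X)
    {ι : Type*} (x₀ : ι → X) (D : ι → Subgroup G)
    (hinj : ∀ i j g, a g (x₀ i) = x₀ j → i = j ∧ ∃ u ∈ U, ∃ d ∈ D i, g = u * d)
    (F : ∀ i, invOf (A := X0 L V σ) (D i) (coind L V σ)) (i j : ι) (g g' : G)
    (h : a g (x₀ i) = a g' (x₀ j)) : ((F i).1 : G → Z) g = ((F j).1 : G → Z) g' := by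
  have h1 : a (g'⁻¹ * g) (x₀ i) = x₀ j := by
    rw [map_mul, Equiv.Perm.mul_apply, h, ← Equiv.Perm.mul_apply, ← map_mul, inv_mul_cancel,
      map_one]
    rfl
  obtain ⟨rfl, u, hu, d, hd, hg⟩ := hinj i j _ h1
  have hg' : g = g' * u * d := by
    rw [mul_assoc, ← hg]
    group
  have hinv : ∀ y, ((F i).1 : G → Z) (y * d) = ((F i).1 : G → Z) y := fun y => by
    have h2 := (F i).2 d hd
    exact congrFun (congrArg Subtype.val h2) y
  have hconj : g' * u * g'⁻¹ ∈ U := (L.normal' U hU).conj_mem u hu g'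
  have h3 : g' * u = (g' * u * g'⁻¹) * g' := by group
  rw [hg', hinv, h3, (F i).1.2.1 _ (hUV hconj) g', hσ _ hconj]
  rfl

/-- the comparison map. -/
def Orbit_map (L : LevelSystem G) {U V : Subgroup G} (hU : U ∈ L)
    {Z : Type*} [AddCommGroup Z] [Module k Z] (σ : Representation k G Z)
    {X : Type*} (a : G →* Equiv.Perm X) (ha : ∀ u ∈ U, a u = 1)
    {ι : Type*} (x₀ : ι → X) (D : ι → Subgroup G)
    (hD : ∀ i, ∀ d ∈ D i, a d (x₀ i) = x₀ i) :
    equivFunOn V a σ →ₗ[k] ∀ i, invOf (A := X0 L V σ) (D i) (coind L V σ) where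
  toFun f i := ⟨⟨fun g => f.1 (a g (x₀ i)), by
      refine ⟨fun v hv g => ?_, U, hU, fun g u hu => ?_⟩
      · show f.1 (a (v * g) (x₀ i)) = σ v (f.1 (a g (x₀ i)))
        rw [map_mul, Equiv.Perm.mul_apply]
        exact f.2 v hv _
      · show f.1 (a (g * u) (x₀ i)) = f.1 (a g (x₀ i))
        rw [map_mul, ha u hu, mul_one]⟩, by
    intro d hd
    apply Subtype.ext
    funext g
    show f.1 (a (g * d) (x₀ i)) = f.1 (a g (x₀ i))
    rw [map_mul, Equiv.Perm.mul_apply, hD i d hd]⟩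
  map_add' f f' := rfl
  map_smul' c f := rfl

theorem Orbit_map_apply (L : LevelSystem G) {U V : Subgroup G} (hU : U ∈ L)
    {Z : Type*} [AddCommGroup Z] [Module k Z] (σ : Representation k G Z)
    {X : Type*} (a : G →* Equiv.Perm X) (ha : ∀ u ∈ U, a u = 1)
    {ι : Type*} (x₀ : ι → X) (D : ι → Subgroup G)
    (hD : ∀ i, ∀ d ∈ D i, a d (x₀ i) = x₀ i) (f : equivFunOn V a σ) (i : ι) (g : G) :
    ((Orbit_map L hU σ a ha x₀ D hD f i).1 : G → Z) g = f.1 (a g (x₀ i)) := rfl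

/-- **(Orbit)**
PROOF.  Linear equivalence `equivFunOn V a σ ≃ₗ ∀ i, invOf (D i) (coind L V σ)`:
`f ↦ (i ↦ (g ↦ f (a g (x₀ i))))`.
* it lands in `X0 L V σ`: equivariance from `f ∈ equivFunOn`, smoothness at the level `U` (`a (g * u) = a g * a u = a g`);
  `D i`-invariance: `(coind d F) g = F (g * d)` (`coind_apply_coe`) and `hD`.
* injective by `hsurj`.
* surjective: given `(F i)`, put `f x := F i g` for a chosen `(i, g)` with `a g (x₀ i) = x` (`hsurj`, `Classical.choose`).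
  Independence of the choice: if `a g (x₀ i) = a g' (x₀ j)` then `a (g'⁻¹ * g) (x₀ i) = x₀ j`, so by `hinj` `i = j` and
  `g = g' * u * d`; `F (g' * u * d) = F (g' * u)` (`D i`-invariance) `= F ((g' * u * g'⁻¹) * g') = σ (g' u g'⁻¹) (F g') = F g'`
  (`U` normal: `L.normal' U hU`, `U ≤ V`, `hσ`).
Then `LinearEquiv.finrank_eq`, `Module.finrank_pi_fintype`; finiteness of `X0 L V σ`: `finite_X0 L V ⟨U, hU, hUV⟩ σ`. -/
theorem finrank_equivFunOn_eq_sum (L : LevelSystem G) {U V : Subgroup G} (hU : U ∈ L) (hUV : U ≤ V)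
    {Z : Type*} [AddCommGroup Z] [Module k Z] [Module.Finite k Z] (σ : Representation k G Z)
    (hσ : ∀ u ∈ U, σ u = 1) {X : Type*} (a : G →* Equiv.Perm X) (ha : ∀ u ∈ U, a u = 1)
    {ι : Type*} [Fintype ι] (x₀ : ι → X) (D : ι → Subgroup G)
    (hD : ∀ i, ∀ d ∈ D i, a d (x₀ i) = x₀ i)
    (hsurj : ∀ x, ∃ i g, a g (x₀ i) = x)
    (hinj : ∀ i j g, a g (x₀ i) = x₀ j → i = j ∧ ∃ u ∈ U, ∃ d ∈ D i, g = u * d) :
    finrank k (equivFunOn V a σ) =
      ∑ i, finrank k (invOf (A := X0 L V σ) (D i) (coind L V σ)) := by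
  classical
  have hinjΦ : Function.Injective (Orbit_map (V := V) L hU σ a ha x₀ D hD) := by
    rw [injective_iff_map_eq_zero]
    intro f hf
    apply Subtype.ext
    funext x
    obtain ⟨i, g, rfl⟩ := hsurj x
    rw [← Orbit_map_apply L hU σ a ha x₀ D hD f i g, hf]
    rfl
  have hsurjΦ : Function.Surjective (Orbit_map (V := V) L hU σ a ha x₀ D hD) := by
    intro F
    choose ix gx hx using hsurj
    have key : ∀ i g, ((F (ix (a g (x₀ i)))).1 : G → Z) (gx (a g (x₀ i))) =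
        ((F i).1 : G → Z) g := fun i g =>
      Orbit_indep L hU hUV σ hσ a x₀ D hinj F _ _ _ _ (hx (a g (x₀ i)))
    refine ⟨⟨fun x => ((F (ix x)).1 : G → Z) (gx x), ?_⟩, ?_⟩
    · intro v hv x
      have hxx := hx x
      show ((F (ix (a v x))).1 : G → Z) (gx (a v x)) = σ v (((F (ix x)).1 : G → Z) (gx x))
      have h1 : a v x = a (v * gx x) (x₀ (ix x)) := by
        rw [map_mul, Equiv.Perm.mul_apply, hxx]
      rw [h1, key]
      exact (F (ix x)).1.2.1 v hv (gx x)
    · funext i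
      apply Subtype.ext
      apply Subtype.ext
      funext g
      exact key i g
  have := finite_X0 L V ⟨U, hU, hUV⟩ σ
  rw [(LinearEquiv.ofBijective _ ⟨hinjΦ, hsurjΦ⟩).finrank_eq, Module.finrank_pi_fintype]

end Fermat.Agent.S56.G2.D

end
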