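/-
S56 (G2)(D), leaf PlacesFin: the `GQ`-set of the places of `N` over `S` is `⊔_{ℓ ∈ S} GQ / (Vof N · Dl ℓ)`.
-/
import Fermat.Agent.S56.G2.D.GalAct
import Fermat.Agent.PT.Global.PlaceSystem
import Fermat.Agent.PT.Bridge.GalLevels
import Fermat.Agent.PT.Koch.Levels

set_option autoImplicit false
set_option linter.unusedSectionVars false

open NumberField IsDedekindDomain Fermat.Agent.CFT Fermat.Agent.PT ExtCitation
open scoped Pointwise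

noncomputable section

namespace Fermat.Agent.S56.G2.D

variable {N : Type*} [Field N] [NumberField N] [Algebra N Qbar] [IsGalois ℚ N]
  {S : Finset Nat.Primes}

/-- Equivariance of `plOf` for all of `GQ` (`plOf_smul` of `PT/Hens/Restrict.lean` with base field `ℚ`, `rN_eq_resHom`). -/
theorem plOf_smul_rN {𝒜 : Place} (h : 𝒜.IsFin) (g : GQ) :
    plOf N (g • 𝒜) (h.smul g) = rN N g • plOf N 𝒜 h := by
  rw [rN_eq_resHom]
  exact plOf_smul (N := ℚ) (N' := N) h ⟨g, mem_Vof_rat g⟩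

theorem PlacesFin_isFin (ℓ : Nat.Primes) : Place.IsFin (primeLocalPlace ℓ) := ⟨ℓ, Base.liesOver_Pl0 ℓ⟩

theorem PlacesFin_coe_x0F (ℓ : ↥S) :
    ((x0F N ℓ : SNsub N S) : Pl N) = plOf N (primeLocalPlace ℓ.1) (PlacesFin_isFin ℓ.1) := rfl

/-- (`plOf_smul_rN`; `d • primeLocalPlace ℓ = primeLocalPlace ℓ` for `d ∈ Dl ℓ = Dec (primeLocalPlace ℓ)`;
`Restrict.plOf_congr`.) -/
theorem aF_fix (ℓ : ↥S) : ∀ d ∈ Dl ℓ.1, aF N S d (x0F N ℓ) = x0F N ℓ := by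
  intro d hd
  apply Subtype.ext
  rw [coe_aF, PlacesFin_coe_x0F, ← plOf_smul_rN]
  exact Restrict.plOf_congr _ _ hd

/-- (`x.2 : ∃ q ∈ S, Over x q`; `exists_plOf_eq`, `over_plOf_iff`, `exists_smul_eq_of_liesOverPrime` (transitivity of `GQ` on
the places of `Qbar` over `q`, `PT/Global/PlaceSystem.lean`), `plOf_smul_rN`.) -/
theorem aF_surj (x : SNsub N S) : ∃ (ℓ : ↥S) (g : GQ), aF N S g (x0F N ℓ) = x := by
  obtain ⟨w, q, hq, hw⟩ := x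
  obtain ⟨𝒜, h𝒜, rfl⟩ := exists_plOf_eq w
  have hover : 𝒜.LiesOverPrime (q : ℕ) := (over_plOf_iff h𝒜 q).1 hw
  obtain ⟨g, hg⟩ := exists_smul_eq_of_liesOverPrime q.2 (primeLocalPlace q) 𝒜
    (Base.liesOver_Pl0 q) hover
  refine ⟨⟨q, hq⟩, g, ?_⟩
  apply Subtype.ext
  rw [coe_aF, PlacesFin_coe_x0F, ← plOf_smul_rN]
  exact Restrict.plOf_congr _ h𝒜 hg

/-- (`ℓ = ℓ'`: both places lie over `ℓ` and `ℓ'` (`over_smul_iff`, `over_plOf_iff`), uniqueness of the residue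
characteristic: `Koch.Levels.liesOverPrime_unique`.  Then `plOf N (g • 𝒜) = plOf N 𝒜`, `𝒜 = primeLocalPlace ℓ`, so by
`exists_smul_eq_of_plOf_eq` there is `t ∈ Vof N` with `t • g • 𝒜 = 𝒜`, i.e. `t * g ∈ Dl ℓ`; `g = t⁻¹ * (t * g)`.) -/
theorem aF_inj (ℓ ℓ' : ↥S) (g : GQ) (h : aF N S g (x0F N ℓ) = x0F N ℓ') :
    ℓ = ℓ' ∧ ∃ u ∈ Vof N, ∃ d ∈ Dl ℓ.1, g = u * d := by
  have h1 := congrArg Subtype.val h
  rw [coe_aF, PlacesFin_coe_x0F, PlacesFin_coe_x0F, ← plOf_smul_rN] at h1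
  have hℓ : ℓ = ℓ' := by
    have h2 : Over (plOf N (primeLocalPlace ℓ'.1) (PlacesFin_isFin ℓ'.1)) (ℓ.1 : ℕ) := by
      rw [← h1, over_plOf_iff]
      exact Place.liesOverPrime_smul g _ _ (Base.liesOver_Pl0 ℓ.1)
    rw [over_plOf_iff] at h2
    exact Subtype.ext (Koch.Levels.liesOverPrime_unique h2 (Base.liesOver_Pl0 ℓ'.1))
  subst hℓ
  refine ⟨rfl, ?_⟩
  obtain ⟨t, ht, hteq⟩ := exists_smul_eq_of_plOf_eq (N := N) _ _ h1
  refine ⟨t⁻¹, (Vof N).inv_mem ht, t * g, ?_, by group⟩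
  change (t * g) • primeLocalPlace ℓ.1 = primeLocalPlace ℓ.1
  rw [mul_smul, hteq]

end Fermat.Agent.S56.G2.D

end
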