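/-
S56 (G2)(D), leaf S0: for `S'` large enough the places of `N` over `S'` generate the class group.
-/
import Fermat.Agent.CFT.GenCl
import Fermat.Agent.PT.Koch.PlaceSys

set_option autoImplicit false

open NumberField IsDedekindDomain Fermat.Agent.CFT Fermat.Agent.PT Fermat.Agent.PT.Koch

noncomputable section

namespace Fermat.Agent.S56.G2.D

/-- PROOF.  `exists_GenCl ∅` gives a finite `T` with `GenCl T`.  Every `v : Pl N` lies over a rational prime `q v : Nat.Primes`
(e.g. `exists_plOf_eq v`, `Place.IsFin`, `over_plOf_iff`; or directly from `v.asIdeal ≠ ⊥`).  `S₀ := S ∪ T.image q`.  For `S₀ ⊆ S'`: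
`T ⊆ SN N S'`, conclude by `GenCl.mono`. -/
theorem exists_S0 (N : Type*) [Field N] [NumberField N] [Algebra N Qbar] (S : Finset Nat.Primes) :
    ∃ S₀ : Finset Nat.Primes, S ⊆ S₀ ∧ ∀ S' : Finset Nat.Primes, S₀ ⊆ S' → GenCl (SN N S') := by
  classical
  obtain ⟨T, -, hTfin, hT⟩ := exists_GenCl (N := N) ∅ Set.finite_empty
  have hq : ∀ v : Pl N, ∃ q : Nat.Primes, Over v (q : ℕ) := by
    intro v
    obtain ⟨𝒜, h, rfl⟩ := exists_plOf_eq v
    obtain ⟨q, hq⟩ := id h
    exact ⟨q, (over_plOf_iff h (q : ℕ)).2 hq⟩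
  choose q hq using hq
  refine ⟨S ∪ hTfin.toFinset.image q, Finset.subset_union_left, fun S' hS' => hT.mono ?_⟩
  intro v hv
  refine ⟨q v, hS' (Finset.mem_union_right _ (Finset.mem_image_of_mem q ?_)), hq v⟩
  exact hTfin.mem_toFinset.2 hv

end Fermat.Agent.S56.G2.D

end
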