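/-
S56 (G2)(D), leaf ShaArith: if `Cl_T(M) = 0` then `V_T = M^{×p}` (first inequality of class field theory).
-/
import Fermat.Agent.CFT.KeyLemma
import Fermat.Agent.CFT.LPSplit
import Fermat.Agent.CFT.TameUnram
import Fermat.Agent.PT.Arith.ClCountB

set_option autoImplicit false

open NumberField IsDedekindDomain Fermat.Agent.CFT Fermat.Agent.PT.Arith

noncomputable section

namespace Fermat.Agent.S56.G2.D

/-- **(ShaArith)**
PROOF.  Let `x ∈ VS`, `x ∉ PW`.  `ClCountB_exists_mul_pow_mem_SU hgen` (with `mem_SigS_iff`): `α := x * y ^ p ∈ SU T`; `α ∉ PW`;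
`α ∈ LP p ζ v` for `v ∈ T` (`pow_mem_LP`, `Subgroup.mul_mem`).  `KeyLemma.exists_kummer_unit` gives `L = M(θ)`, `θ ^ p = α`, Galois of
degree `p`.  Every `v ∈ T` splits (`split_of_mem_LP`); every `w ∉ upSet L T` is unramified (`exists_below`, `unram_of_dvd_ord`: the
place `v` below `w` is not in `T`, so `¬ Over v p` and `ord v α = 0`).  `firstInequality` gives
`r ≠ 0 ∧ r * p ≤ p ^ ({v ∈ T | ¬ Split L v}.ncard) = p ^ 0 = 1`: contradiction. -/
theorem VS_le_PW (p : ℕ) [Fact p.Prime] (hp2 : p ≠ 2) {M : Type*} [Field M] [NumberField M] (ζ : M)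
    (hζ : IsPrimitiveRoot ζ p) (T : Set (Pl M)) (hT : T.Finite) (hTp : ∀ v : Pl M, Over v p → v ∈ T)
    (hgen : GenCl T) : VS p ζ T ≤ PW p Mˣ := by
  have hp : p.Prime := Fact.out
  intro x hx
  by_contra hxP
  have hx1 : x ∈ SigS M p T := (Subgroup.mem_inf.1 hx).1
  have hx2 : ∀ v ∈ T, x ∈ LP p ζ v := by
    have := (Subgroup.mem_inf.1 hx).2
    simpa [Subgroup.mem_iInf] using this
  obtain ⟨y, hy⟩ := ClCountB_exists_mul_pow_mem_SU hgen p hp.ne_zero x ((mem_SigS_iff p T x).1 hx1)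
  set α : Mˣ := x * y ^ p with hα
  have hαP : α ∉ PW p Mˣ := by
    intro h
    apply hxP
    have hyP : y ^ p ∈ PW p Mˣ := (mem_PW_iff p _).2 ⟨y, rfl⟩
    have : x = α * (y ^ p)⁻¹ := by rw [hα]; group
    rw [this]
    exact mul_mem h (inv_mem hyP)
  have hαLP : ∀ v ∈ T, α ∈ LP p ζ v := fun v hv => mul_mem (hx2 v hv) (pow_mem_LP p ζ v y)
  obtain ⟨L, _, _, _, _, hdeg, θ, hθ, hθgen, hθM⟩ := KeyLemma.exists_kummer_unit hp hζ α hαP
  have hsplit : ∀ v ∈ T, Split L v := fun v hv =>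
    split_of_mem_LP p ζ hζ θ α hθ hθgen v (hαLP v hv)
  have hram : ∀ w : Pl L, w ∉ upSet L T → Unram M w := by
    intro w hw
    obtain ⟨v, hv⟩ := exists_below (N := M) w
    have hvT : v ∉ T := fun h => hw ⟨v, h, hv⟩
    refine unram_of_dvd_ord p ζ hζ θ α hθ hθgen v w hv (fun h => hvT (hTp v h)) ?_
    rw [(mem_SU_iff T α).1 hy v hvT]
    exact dvd_zero _
  obtain ⟨h0, h1⟩ := firstInequality p hp2 hdeg ζ hζ T hT hgen hram θ α hy hθ hθM
  have hempty : {v ∈ T | ¬ Split L v} = ∅ := by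
    ext v
    simp only [Set.mem_ofPred_eq, Set.mem_empty_iff_false, iff_false, not_and, not_not]
    exact hsplit v
  rw [hempty, Set.ncard_empty, pow_zero] at h1
  have h2 : 1 ≤ (normSU L T).relIndex (SU T) := Nat.one_le_iff_ne_zero.2 h0
  have h3 : p ≤ (normSU L T).relIndex (SU T) * p := Nat.le_mul_of_pos_left p h2
  have := hp.one_lt
  omega

end Fermat.Agent.S56.G2.D

end
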