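/-
S56 (G2)(D), leaf Sha: `Ш¹_S(V, σ) = 0` when `Cl_S(N) = 0`, `Vof N ≤ V` of index prime to `p`, `σ` trivial on `Vof N`.
-/
import Fermat.Agent.S56.G2.D.ShaArith
import Fermat.Agent.S56.G2.D.Psi2
import Fermat.Agent.S56.G2.D.KumDefs

set_option autoImplicit false
set_option linter.unusedSectionVars false

open NumberField IsDedekindDomain Fermat.Agent.CFT Fermat.Agent.PT Fermat.Agent.PT.Arith
  Fermat.Agent.PT.Koch ExtCitation

noncomputable section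

namespace Fermat.Agent.S56.G2.D

variable {N : Type*} [Field N] [NumberField N] [Algebra N Qbar]
variable {p : ℕ} [Fact p.Prime] {ι : ZMod p →+ Additive Qbarˣ}
  (K : KummerSetup Lall p multRep (cycRep p) ι) {S : Finset Nat.Primes}

include K in
/-- (`exists_VS_of_mem_ShaZ1` gives `x ∈ VS` with `f - K.kum (emb x) ∈ B1 (LS S)`; `VS_le_PW` (with `finite_SN`, `over_mem_SN hpS`)
gives `x ∈ PW`, so `K.kum (emb x) ∈ B1 Lall` (`kum_mem_B1_global_iff`), hence in `B1 (LS S)` (`mem_B1_LS_iff`, `kum_mem_Z1_LS`,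
`Sha1.VS_le_SigS`).  `ζ` from `exists_zeta K hV1`.) -/
theorem mem_B1_of_mem_ShaZ1_cyc (hp2 : p ≠ 2) (hpS : pPrime p ∈ S) (hU : Vof N ∈ LS S)
    (hV1 : Vof N ≤ G1 p) (hgen : GenCl (SN N S)) :
    ∀ f ∈ ShaZ1 S (Vof N) (cycRep p), f ∈ B1 (LS S) (Vof N) (cycRep p) := by
  intro f hf
  obtain ⟨ζ, hζ⟩ := exists_zeta K hV1
  have hVS := LevelSystem.isOpen_of_mem hU
  obtain ⟨x, hx, hfx⟩ := exists_VS_of_mem_ShaZ1 K hζ hpS hVS hV1 hf
  have hxP : x ∈ PW p Nˣ :=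
    VS_le_PW p hp2 ζ hζ (SN N S) finite_SN (over_mem_SN hpS) hgen hx
  have h1 : K.kum (emb x) ∈ B1 Lall (Vof N) (cycRep p) := (kum_mem_B1_global_iff K x).2 hxP
  have h2 : K.kum (emb x) ∈ B1 (LS S) (Vof N) (cycRep p) :=
    (mem_B1_LS_iff hV1 (kum_mem_Z1_LS K hζ hpS hVS hV1 (Sha1.VS_le_SigS ζ _ hx))).2 h1
  have h3 := Submodule.add_mem _ hfx h2
  rwa [sub_add_cancel] at h3

/-- **(Sha)**
PROOF.  Let `z ∈ ShaZ1 S V σ`; we show `z ∈ B1 (LS S) V σ` (then every class is `0`: `Submodule.Quotient.mk_surjective`,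
`Submodule.Quotient.mk_eq_zero`).  By `mem_B1_of_mem_B1_level` and `mem_B1_of_forall_lam` (`Psi2.lean`; `k = ZMod p`,
`((U.relIndex V : ℕ) : ZMod p) ≠ 0` from `hidx` by `ZMod.natCast_eq_zero_iff`; `cycRep p u = 1` for `u ∈ Vof N ≤ G1 p`:
`cycRep_apply_of_mem_G1`) it is enough that `lam ∘ z ∈ B1 (LS S) (Vof N) cyc` for all `lam`, and by `hcyc` that
`lam ∘ z ∈ ShaZ1 S (Vof N) cyc`:
* `lam ∘ z ∈ Z1 (LS S) (Vof N) cyc`: `(lamC ..).memZ1 ((resC ..).memZ1 _)`;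
* at `𝒜` over `S`: `z = d0 e`, `e ∈ X0 Lall (V ⊓ Dec 𝒜) σ`; then `lam ∘ z = d0 (lam ∘ e)`, and `lam ∘ e ∈ X0 Lall (Vof N ⊓ Dec 𝒜) cyc`. -/
theorem subsingleton_Sha1 (hU : Vof N ∈ LS S) (hV1 : Vof N ≤ G1 p) {V : Subgroup GQ}
    (hUV : Vof N ≤ V) (hidx : ¬ p ∣ (Vof N).relIndex V)
    (hcyc : ∀ f ∈ ShaZ1 S (Vof N) (cycRep p), f ∈ B1 (LS S) (Vof N) (cycRep p))
    {Z : Type*} [AddCommGroup Z] [Module (ZMod p) Z] [Module.Finite (ZMod p) Z]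
    (σ : Representation (ZMod p) GQ Z) (hσ : ∀ u ∈ Vof N, σ u = 1) :
    Subsingleton (Sha1 S V σ) := by
  have hidx' : (((Vof N).relIndex V : ℕ) : ZMod p) ≠ 0 := by
    rw [Ne, ZMod.natCast_eq_zero_iff]
    exact hidx
  have hc : ∀ u ∈ Vof N, cycRep p u = 1 := by
    intro u hu
    apply LinearMap.ext
    intro a
    exact cycRep_apply_of_mem_G1 (hV1 hu) a
  have key : ∀ z ∈ ShaZ1 S V σ, z ∈ B1 (LS S) V σ := by
    intro z hz
    obtain ⟨hz1, hz2⟩ := Submodule.mem_inf.1 hz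
    simp only [Submodule.mem_iInf] at hz2
    refine mem_B1_of_mem_B1_level (LS S) hU hUV hidx' hz1
      (mem_B1_of_forall_lam (LS S) hσ hc (fun lam => hcyc _ ?_))
    refine Submodule.mem_inf.2 ⟨?_, ?_⟩
    · exact (lamC (LS S) hσ hc lam).memZ1 ((resC (LS S) σ hUV).memZ1 hz1)
    · simp only [Submodule.mem_iInf]
      intro 𝒜 h𝒜
      obtain ⟨e, ⟨he1, W, hW, he2⟩, hze⟩ := mem_B1.1 (hz2 𝒜 h𝒜)
      refine mem_B1.2 ⟨fun g => lam (e g), ⟨fun u hu g => ?_, W, hW, fun g w hw => ?_⟩, ?_⟩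
      · show lam (e (u * g)) = cycRep p u (lam (e g))
        rw [he1 u ⟨hUV hu.1, hu.2⟩, hσ u hu.1, hc u hu.1]
        rfl
      · show lam (e (g * w)) = lam (e g)
        rw [he2 g w hw]
      · funext g₀ g₁
        rw [d0_apply, ← hze, d0_apply, map_sub]
  refine ⟨fun a b => ?_⟩
  obtain ⟨a, rfl⟩ := Submodule.Quotient.mk_surjective _ a
  obtain ⟨b, rfl⟩ := Submodule.Quotient.mk_surjective _ b
  rw [Submodule.Quotient.eq]
  exact key _ (sub_mem a.2 b.2)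

end Fermat.Agent.S56.G2.D

end
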