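/-
S56 (G2)(D): the base case `BaseH1Statement p` from the units contract `UnitsStatement p`.  ASSEMBLY.
-/
import Fermat.Agent.S56.G2.Statement
import Fermat.Agent.S56.G2.D.F1
import Fermat.Agent.S56.G2.D.F3
import Fermat.Agent.S56.G2.D.F4
import Fermat.Agent.S56.G2.D.Bar
import Fermat.Agent.S56.G2.D.Descent
import Fermat.Agent.S56.G2.D.Orbit
import Fermat.Agent.S56.G2.D.Mu
import Fermat.Agent.S56.G2.D.Minus
import Fermat.Agent.S56.G2.D.PlacesFin
import Fermat.Agent.S56.G2.D.PlacesInf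
import Fermat.Agent.S56.G2.D.Kum1
import Fermat.Agent.S56.G2.D.Kum2
import Fermat.Agent.S56.G2.D.Sha
import Fermat.Agent.S56.G2.D.S0
import Fermat.Agent.PT.R.Char
import Fermat.Agent.GAL.ALG.Cyclo

set_option autoImplicit false
set_option maxHeartbeats 1000000
set_option linter.style.haveILetI false

open NumberField IsDedekindDomain Module Fermat.Agent.CFT Fermat.Agent.PT Fermat.Agent.PT.Arith
  Fermat.Agent.PT.Koch ExtCitation

noncomputable section

namespace Fermat.Agent.S56.G2.D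

variable {p : ℕ} [Fact p.Prime]

theorem cycloChar_complexConjugation :
    ((cycloChar p complexConjugation : (ZMod p)ˣ) : ZMod p) = -1 := by
  have hp : p.Prime := Fact.out
  have h := cycloChar_eq_of_actsBy (q := p) (g := complexConjugation) (c := p - 1) (by
    intro z hz
    rw [Fermat.Agent.GAL.complexConjugation_root_of_unity p z hp.ne_zero hz]
    have hz0 : z ≠ 0 := by
      rintro rfl
      rw [zero_pow hp.ne_zero] at hz
      exact zero_ne_one hz
    apply inv_eq_of_mul_eq_one_right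
    rw [← pow_succ', Nat.sub_add_cancel hp.one_le, hz])
  rw [h, Nat.cast_sub hp.one_le]
  simp

theorem dtw_eq_one_of_mem {U : Subgroup GQ} [U.Normal] (hU1 : U ≤ G1 p) {Y : Type*} [AddCommGroup Y]
    [Module (ZMod p) Y] (ρ : Representation (ZMod p) GQ Y) (hρ : ∀ u ∈ U, ρ u = 1) :
    ∀ u ∈ U, dtw p ρ u = 1 := by
  intro u hu
  have h1 : cycloChar p u = 1 := hU1 hu
  rw [dtw, Representation.twist_apply, h1, dual_eq_one_of_mem U ρ hρ u hu]
  simp

/-- The base case for a number field `N ⊆ Qbar`, Galois over `ℚ`, `μ_p ⊆ N`, `Cl_S(N) = 0`. -/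
theorem base_core (hp2 : p ≠ 2) (hUnits : UnitsStatement p)
    {N : Type} [Field N] [NumberField N] [Algebra N Qbar] [IsGalois ℚ N]
    {S : Finset Nat.Primes} (hpS : pPrime p ∈ S) (hU : Vof N ∈ LS S) (hV1 : Vof N ≤ G1 p)
    (hgen : GenCl (SN N S)) {V : Subgroup GQ} (hUV : Vof N ≤ V) (hidx : ¬ p ∣ (Vof N).relIndex V)
    {Y : Type} [AddCommGroup Y] [Module (ZMod p) Y] [Module.Finite (ZMod p) Y]
    (ρ : Representation (ZMod p) GQ Y) (hρ : ∀ u ∈ Vof N, ρ u = 1) :
    Module.Finite (ZMod p) (H1 (LS S) V ρ) ∧ Subsingleton (Sha1 S V (dtw p ρ)) ∧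
      finrank (ZMod p) (H1 (LS S) V ρ) + finrank (ZMod p) (invOf V (dtw p ρ)) =
        finrank (ZMod p) (invOf V ρ)
          + ∑ ℓ ∈ S, finrank (ZMod p)
              (invOf (A := X0 (LS S) V (dtw p ρ)) (Dl ℓ) (coind (LS S) V (dtw p ρ)))
          + finrank (ZMod p) (minusPart (A := X0 (LS S) V ρ) (coind (LS S) V ρ)) := by
  classical
  have K := kummerQbar p
  obtain ⟨ζ, hζ⟩ := exists_zeta (N := N) K hV1
  haveI hUn : (Vof N).Normal := (LS S).normal' _ hU
  haveI hUf : (Vof N).FiniteIndex := (LS S).finiteIndex' _ hU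
  haveI : Finite (CosetsIn V (Vof N)) := finite_cosetsIn_of_finiteIndex V (Vof N)
  have hcard : Nat.card (CosetsIn V (Vof N)) = (Vof N).relIndex V := card_cosetsIn V (Vof N)
  have hidxk : (((Vof N).relIndex V : ℕ) : ZMod p) ≠ 0 := by
    rwa [Ne, ZMod.natCast_eq_zero_iff]
  have hΓ : (Nat.card (CosetsIn V (Vof N)) : ZMod p) ≠ 0 := by rw [hcard]; exact hidxk
  have hc : ∀ u ∈ Vof N, cycRep p u = 1 := fun u hu =>
    LinearMap.ext (fun a => cycRep_apply_of_mem_G1 (hV1 hu) a)
  have hω : ∀ u ∈ Vof N, cycloChar p u = 1 := fun u hu => hV1 hu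
  have hcω : ∀ g a, cycRep p g a = ((cycloChar p g : (ZMod p)ˣ) : ZMod p) * a := cycRep_apply p
  have hρ' : ∀ u ∈ Vof N, dtw p ρ u = 1 := dtw_eq_one_of_mem hV1 ρ hρ
  haveI := finite_H1_level K hζ hpS hU hV1 hp2 hgen
  have h1 : Module.Finite (ZMod p) (H1 (LS S) V ρ) :=
    finite_H1_of_level (LS S) hU hUV hρ hc (cycloChar p) hcω hidxk
  have h2 : Subsingleton (Sha1 S V (dtw p ρ)) :=
    subsingleton_Sha1 hU hV1 hUV hidx (mem_B1_of_mem_ShaZ1_cyc K hp2 hpS hU hV1 hgen) (dtw p ρ) hρ'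
  refine ⟨h1, h2, ?_⟩
  -- the finite group, its representation `β = ρ'` and the additive function `dim Hom_Γ(β, -)`
  set β : Representation (ZMod p) (CosetsIn V (Vof N)) (Module.Dual (ZMod p) Y) :=
    barHom V (Vof N) (dtw p ρ) hρ' with hβ
  haveI : Finite (SNsub N S) := (finite_SN (N := N) (S := S)).to_subtype
  have key := hUnits N (CosetsIn V (Vof N)) (barHom V (Vof N) (rN N) rN_eq_one_of_mem)
    (by rw [hcard]; exact hidx) ζ hζ (SN N S) finite_SN
    (by
      rintro γ w ⟨q, hq, hw⟩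
      exact ⟨q, hq, (over_smul_iff _ w q).2 hw⟩)
    (homAddFun hΓ β)
    (H1 (LS S) (Vof N) (cycRep p))
    (barHom V (Vof N) (twH1 (LS S) hU (cycRep p)) (fun u hu => twH1_of_mem (LS S) hU (cycRep p) hu))
    (kap K hζ hpS hU hV1) (kap_surjective K hζ hpS hU hV1 hgen) (kap_eq_one_iff K hζ hpS hU hV1)
    (by
      intro γ x y hxy
      obtain ⟨v, rfl⟩ := QuotientGroup.mk_surjective γ
      exact kap_equivariant K hζ hpS hU hV1 v.1 x y hxy)
    (barHom V (Vof N) (cycRep p) hc)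
    (fun γ => ((barHom V (Vof N) (cycloChar p) hω γ : (ZMod p)ˣ) : ZMod p))
    (by
      intro γ
      obtain ⟨v, rfl⟩ := QuotientGroup.mk_surjective γ
      apply (algebraMap N Qbar).injective
      rw [barHom_mk, barHom_mk, rN_spec, map_pow]
      exact apply_eq_pow_cycloChar v.1 (by rw [← map_pow, hζ.pow_eq_one, map_one]))
    (by
      intro γ a
      obtain ⟨v, rfl⟩ := QuotientGroup.mk_surjective γ
      exact hcω v.1 a)
    (SNsub N S) (barHom V (Vof N) (aF N S) (aF_eq_one_of_mem S)) Subtype.val Subtype.val_injective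
    Subtype.range_val
    (by
      intro γ x
      obtain ⟨v, rfl⟩ := QuotientGroup.mk_surjective γ
      rfl)
    (InfinitePlace N) (barHom V (Vof N) (aI N) aI_eq_one_of_mem) id Function.bijective_id
    (by
      intro γ x
      obtain ⟨v, rfl⟩ := QuotientGroup.mk_surjective γ
      rfl)
  simp only [homAddFun_toFun] at key
  -- the five terms
  have t1 : finrank (ZMod p) (EHom β (barHom V (Vof N) (twH1 (LS S) hU (cycRep p))
      (fun u hu => twH1_of_mem (LS S) hU (cycRep p) hu))) = finrank (ZMod p) (H1 (LS S) V ρ) := by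
    rw [hβ, EHom_barHom]
    exact (finrank_H1_eq (LS S) hU hUV hρ hc (cycloChar p) hcω hidxk).symm
  have t2 : finrank (ZMod p) (EHom β (Representation.trivial (ZMod p) (CosetsIn V (Vof N)) (ZMod p))) =
      finrank (ZMod p) (invOf V (dtw p ρ)) := by
    rw [finrank_EHom_trivial, finrank_invOf_dual hΓ, hβ, invOf_top_barHom]
  have t3 : finrank (ZMod p) (EHom β (barHom V (Vof N) (cycRep p) hc)) =
      finrank (ZMod p) (invOf V ρ) := by
    rw [hβ, EHom_barHom]
    exact finrank_EHomOn_dualTwist_chi V ρ (cycloChar p) (cycRep p) hcω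
  have t4 : finrank (ZMod p) (EHom β (permRepP (ZMod p) (barHom V (Vof N) (aF N S) (aF_eq_one_of_mem S)))) =
      ∑ ℓ ∈ S, finrank (ZMod p)
        (invOf (A := X0 (LS S) V (dtw p ρ)) (Dl ℓ) (coind (LS S) V (dtw p ρ))) := by
    rw [finrank_EHom_permRep, finrank_equivFunOn_dual hΓ, hβ, equivFunOn_top_barHom,
      finrank_equivFunOn_eq_sum (LS S) hU hUV (dtw p ρ) hρ' (aF N S) (aF_eq_one_of_mem S) (x0F N)
        (fun ℓ : ↥S => Dl ℓ.1) aF_fix aF_surj aF_inj]
    exact Finset.sum_coe_sort S (fun ℓ => finrank (ZMod p)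
        (invOf (A := X0 (LS S) V (dtw p ρ)) (Dl ℓ) (coind (LS S) V (dtw p ρ))))
  have t5 : finrank (ZMod p) (EHom β (permRepP (ZMod p) (barHom V (Vof N) (aI N) aI_eq_one_of_mem))) =
      finrank (ZMod p) (minusPart (A := X0 (LS S) V ρ) (coind (LS S) V ρ)) := by
    rw [finrank_EHom_permRep, hβ, dual_barHom, equivFunOn_top_barHom,
      finrank_equivFunOn_eq_sum (LS S) hU hUV (dtw p ρ).dual (dual_eq_one_of_mem (Vof N) _ hρ') (aI N)
        aI_eq_one_of_mem (fun _ : Unit => x0I N) (fun _ : Unit => Subgroup.zpowers complexConjugation)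
        (fun _ => aI_fix) aI_surj aI_inj]
    rw [Finset.univ_unique, Finset.sum_singleton]
    exact finrank_invOf_zpowers_coind (LS S) hU V ρ (cycloChar p) hω complexConjugation
      cycloChar_complexConjugation
  rw [t1, t2, t3, t4, t5] at key
  exact_mod_cast key

/-- **(D)** the base case. -/
theorem baseH1_of_units (hp2 : p ≠ 2) (hUnits : UnitsStatement p) : BaseH1Statement p := by
  intro S hpS U hU hU1
  obtain ⟨hUn, E, hE, rfl⟩ := hU
  haveI : FiniteDimensional ℚ E := hE.1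
  haveI : NumberField E := numberField_of_finiteDimensional E
  haveI hgal : IsGalois ℚ E := by
    convert (InfiniteGalois.normal_iff_isGalois E).mp hUn
    exact Subsingleton.elim _ _
  have hVof : Vof E = E.fixingSubgroup := Vof_intermediateField E
  obtain ⟨S₀, hSS₀, hgen⟩ := exists_S0 E S
  refine ⟨S₀, hSS₀, fun S' hS' V hUV hidx Y _ _ _ ρ hρ => ?_⟩
  have hSS' : S ⊆ S' := hSS₀.trans hS'
  have hU' : Vof E ∈ LS S' := by
    rw [hVof]
    exact LS_mono hSS' ⟨hUn, E, hE, rfl⟩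
  rw [← hVof] at hU1 hUV hidx hρ
  exact base_core hp2 hUnits (hSS' hpS) hU' hU1 (hgen S' hS') hUV hidx ρ hρ

end Fermat.Agent.S56.G2.D

end
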