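/-
S56 (G2)(D): the base case `BaseH1Statement p`, unconditionally.
-/
import Fermat.Agent.S56.G2.D.Main
import Fermat.Agent.S56.G2.Units.Contract

set_option autoImplicit false

namespace Fermat.Agent.S56.G2

/-- **(D)** the base case. -/
theorem baseH1 {p : ℕ} [Fact p.Prime] (hp2 : p ≠ 2) : BaseH1Statement p :=
  D.baseH1_of_units hp2 (units p)

end Fermat.Agent.S56.G2
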