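/-
S56 (G2)(D), leaf PlacesInf: the `GQ`-set of the infinite places of `N` is `GQ / (Vof N · ⟨c⟩)`,
`c = complexConjugation`.
-/
import Fermat.Agent.S56.G2.D.GalAct

set_option autoImplicit false

open NumberField IsDedekindDomain Fermat.Agent.CFT Fermat.Agent.PT ExtCitation

noncomputable section

namespace Fermat.Agent.S56.G2.D

variable {N : Type*} [Field N] [NumberField N] [Algebra N Qbar] [IsGalois ℚ N]

/-- `σ • mk φ = mk (φ ∘ σ⁻¹)` (`InfinitePlace.smul_mk` / `InfinitePlace.comap_mk`), so
`rN g • x0I = mk (complexEmbedding ∘ g⁻¹ ∘ algebraMap)` (`rN_spec`). -/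
theorem rN_smul_x0I (g : GQ) :
    rN N g • x0I N = InfinitePlace.mk ((complexEmbedding.toRingHom.comp
      ((g⁻¹ : GQ) : Qbar →+* Qbar)).comp (algebraMap N Qbar)) := by
  rw [x0I, InfinitePlace.smul_mk]
  congr 1
  ext z
  have h : (rN N g).symm z = rN N g⁻¹ z := by
    rw [map_inv]; rfl
  simp only [RingHom.comp_apply]
  change complexEmbedding (algebraMap N Qbar ((rN N g).symm z)) = complexEmbedding (g⁻¹ (algebraMap N Qbar z))
  rw [h, rN_spec]

theorem PlacesInf_fix_cc : aI N complexConjugation (x0I N) = x0I N := by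
  rw [aI_apply, rN_smul_x0I, x0I, complexConjugation_inv, ← InfinitePlace.mk_conjugate_eq]
  congr 1
  ext z
  simp only [RingHom.comp_apply, ComplexEmbedding.conjugate_coe_eq]
  change starRingEnd ℂ (complexEmbedding (complexConjugation (algebraMap N Qbar z))) = complexEmbedding (algebraMap N Qbar z)
  rw [complexEmbedding_complexConjugation, Complex.conj_conj]

/-- (`complexEmbedding_complexConjugation`: `complexEmbedding ∘ c = conj ∘ complexEmbedding`; `InfinitePlace.mk_conjugate_eq`;
the stabiliser is a subgroup, so it is enough to treat the generator `c`: `Subgroup.zpowers_le` / induction.) -/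
theorem aI_fix : ∀ d ∈ Subgroup.zpowers complexConjugation, aI N d (x0I N) = x0I N := by
  let St : Subgroup GQ :=
    { carrier := {d | aI N d (x0I N) = x0I N}
      one_mem' := by simp
      mul_mem' := by
        intro a b ha hb
        show aI N (a * b) (x0I N) = x0I N
        rw [map_mul, Equiv.Perm.mul_apply, hb, ha]
      inv_mem' := by
        intro a ha
        show aI N a⁻¹ (x0I N) = x0I N
        rw [map_inv, Equiv.Perm.inv_eq_iff_eq]
        exact ha.symm }
  have h : Subgroup.zpowers complexConjugation ≤ St := by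
    rw [Subgroup.zpowers_le]
    exact PlacesInf_fix_cc
  exact fun d hd => h hd

/-- Every embedding `φ : N →+* ℂ` is `complexEmbedding ∘ g ∘ algebraMap` for some `g : GQ`. -/
theorem exists_embedding_eq (φ : N →+* ℂ) :
    ∃ g : GQ, φ = (complexEmbedding.toRingHom.comp ((g : GQ) : Qbar →+* Qbar)).comp (algebraMap N Qbar) := by
  obtain ⟨σ, hσ⟩ := InfinitePlace.ComplexEmbedding.exists_comp_symm_eq_of_comp_eq (k := ℚ)
    (complexEmbedding.toRingHom.comp (algebraMap N Qbar)) φ (Subsingleton.elim _ _)
  obtain ⟨g, hg⟩ := AlgEquiv.restrictNormalHom_surjective (F := ℚ) (K₁ := N) Qbar σ.symm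
  refine ⟨g, ?_⟩
  rw [← hσ]
  ext z
  simp only [RingHom.comp_apply]
  change complexEmbedding (algebraMap N Qbar (σ.symm z)) = complexEmbedding (g (algebraMap N Qbar z))
  rw [← hg]
  exact congrArg _ (rN_spec g z)

theorem aI_surj (w : InfinitePlace N) : ∃ (_ : Unit) (g : GQ), aI N g (x0I N) = w := by
  obtain ⟨g, hg⟩ := exists_embedding_eq w.embedding
  refine ⟨(), g⁻¹, ?_⟩
  rw [aI_apply, rN_smul_x0I, inv_inv, ← hg, InfinitePlace.mk_embedding]

/-- (`InfinitePlace.mk_eq_iff`: `mk φ = mk ψ ↔ φ = ψ ∨ conj φ = ψ`.  With `φ = ι ∘ g⁻¹|_N`, `ψ = ι|_N`, `ι = complexEmbedding` injective: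
either `g⁻¹` fixes `N`, so `g ∈ Vof N`, `g = g * 1`; or `c * g⁻¹` fixes `N`: `u := g * c⁻¹ ∈ Vof N` and `g = u * c`.) -/
theorem aI_inj (i j : Unit) (g : GQ) (h : aI N g (x0I N) = x0I N) :
    i = j ∧ ∃ u ∈ Vof N, ∃ d ∈ Subgroup.zpowers complexConjugation, g = u * d := by
  refine ⟨rfl, ?_⟩
  rw [aI_apply, rN_smul_x0I, x0I, InfinitePlace.mk_eq_iff] at h
  rcases h with h | h
  · refine ⟨g, ?_, 1, one_mem _, (mul_one g).symm⟩
    have h1 : g⁻¹ ∈ Vof N := by
      intro z
      apply complexEmbedding.toRingHom.injective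
      exact DFunLike.congr_fun h z
    simpa using (Vof N).inv_mem h1
  · refine ⟨g * complexConjugation⁻¹, ?_, complexConjugation, Subgroup.mem_zpowers _, by group⟩
    have h1 : complexConjugation * g⁻¹ ∈ Vof N := by
      intro z
      apply complexEmbedding.toRingHom.injective
      have h2 := DFunLike.congr_fun h z
      simp only [RingHom.comp_apply, ComplexEmbedding.conjugate_coe_eq] at h2
      change complexEmbedding (complexConjugation (g⁻¹ (algebraMap N Qbar z))) = _
      rw [complexEmbedding_complexConjugation]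
      exact h2
    have := (Vof N).inv_mem h1
    simpa using this

end Fermat.Agent.S56.G2.D

end
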